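import Fermat.Agent.CFT.LC.Map

/-!
# Comparison of two level structures

`L` coarse, `L'` finer level structure on a group `G`.  We compare the cohomology of
`L`-constant and `L'`-constant cochains; `K2` is the kernel of `H²(L) → H²(L')`.
-/

set_option autoImplicit false

namespace Fermat.Agent.CFT.D2

open Fermat.Agent.CFT.LC Module

section

variable {k : Type*} [CommRing k] {G : Type*} [Group G] {V : Type*} [AddCommGroup V] [Module k V]

/-- `L'` is finer than `L`. -/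
def Finer (L L' : Lvl G) : Prop := ∀ N ∈ L.levels, L'.IsOpen N

theorem Finer.cont {L L' : Lvl G} (h : Finer L L') : L'.Cont L (MonoidHom.id G) := by
  intro N hN
  obtain ⟨N', hN', h'⟩ := h N hN
  exact ⟨N', hN', h'⟩

theorem Finer.isOpen {L L' : Lvl G} (h : Finer L L') {U : Subgroup G} (hU : L.IsOpen U) :
    L'.IsOpen U := by
  obtain ⟨N, hN, hle⟩ := hU
  exact (h N hN).mono hle

theorem Finer.refl (L : Lvl G) : Finer L L := fun _ hN => ⟨_, hN, le_rfl⟩

theorem Finer.trans {L L' L'' : Lvl G} (h : Finer L L') (h' : Finer L' L'') : Finer L L'' :=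
  fun N hN => h'.isOpen (h N hN)

theorem Finer.isLC₁ {L L' : Lvl G} (h : Finer L L') {X : Type*} {f : G → X} (hf : IsLC₁ L f) :
    IsLC₁ L' f := by
  obtain ⟨N, hN, h1⟩ := hf
  obtain ⟨N', hN', h'⟩ := h N hN
  exact ⟨N', hN', fun g s hs => h1 g s (h' hs)⟩

theorem Finer.isLC₂ {L L' : Lvl G} (h : Finer L L') {X : Type*} {f : G × G → X}
    (hf : IsLC₂ L f) : IsLC₂ L' f := by
  obtain ⟨N, hN, h1⟩ := hf
  obtain ⟨N', hN', h'⟩ := h N hN
  exact ⟨N', hN', fun g g' s hs s' hs' => h1 g g' s (h' hs) s' (h' hs')⟩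

theorem Finer.smooth {L L' : Lvl G} (h : Finer L L') {ρ : Representation k G V}
    (hρ : Smooth L ρ) : Smooth L' ρ := by
  intro v
  obtain ⟨N, hN, h1⟩ := hρ v
  obtain ⟨N', hN', h'⟩ := h N hN
  exact ⟨N', hN', fun s hs => h1 s (h' hs)⟩

theorem Finer.restrict {L L' : Lvl G} (h : Finer L L') (U : Subgroup G) :
    Finer (L.restrict U) (L'.restrict U) := by
  rintro _ ⟨N, hN, rfl⟩
  obtain ⟨N', hN', h'⟩ := h N hN
  exact ⟨_, ⟨N', hN', rfl⟩, Subgroup.comap_mono h'⟩

/-- the comparison morphism -/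
def cmp (ρ : Representation k G V) {L L' : Lvl G} (h : Finer L L') : Mor ρ L ρ L' where
  f := MonoidHom.id G
  φ := LinearMap.id
  cont := h.cont
  comm _ _ := rfl

@[simp] theorem cmp_f (ρ : Representation k G V) {L L' : Lvl G} (h : Finer L L') :
    (cmp ρ h).f = MonoidHom.id G := rfl

@[simp] theorem cmp_φ (ρ : Representation k G V) {L L' : Lvl G} (h : Finer L L') :
    (cmp ρ h).φ = LinearMap.id := rfl

@[simp] theorem cmp_z1_coe (ρ : Representation k G V) {L L' : Lvl G} (h : Finer L L')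
    (c : Z1 ρ L) : ((cmp ρ h).z1 c : G → V) = c.1 := rfl

@[simp] theorem cmp_z2_coe (ρ : Representation k G V) {L L' : Lvl G} (h : Finer L L')
    (c : Z2 ρ L) : ((cmp ρ h).z2 c : G × G → V) = c.1 := rfl

theorem cmp_H1_injective (ρ : Representation k G V) {L L' : Lvl G} (h : Finer L L') :
    Function.Injective (cmp ρ h).H1 := by
  rw [injective_iff_map_eq_zero]
  intro x hx
  obtain ⟨c, rfl⟩ := H1.mk_surjective x
  rw [Mor.H1_mk, H1.mk_eq_zero_iff] at hx
  rw [H1.mk_eq_zero_iff]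
  exact hx

/-- The kernel of `H²(L) → H²(L')`. -/
def K2 (ρ : Representation k G V) {L L' : Lvl G} (h : Finer L L') : Submodule k (LC.H2 ρ L) :=
  LinearMap.ker (cmp ρ h).H2

/-- `L'`-constant cochains whose coboundary is `L`-constant. -/
def X1 (ρ : Representation k G V) (L L' : Lvl G) : Submodule k (G → V) :=
  C1 k L' V ⊓ (C2 k L V).comap (d1 ρ)

theorem mem_X1 {ρ : Representation k G V} {L L' : Lvl G} {β : G → V} :
    β ∈ X1 ρ L L' ↔ IsLC₁ L' β ∧ IsLC₂ L (d1 ρ β) := Iff.rfl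

theorem X1.d1_mem {ρ : Representation k G V} {L L' : Lvl G} {β : G → V} (h : β ∈ X1 ρ L L') :
    d1 ρ β ∈ Z2 ρ L := ⟨LinearMap.mem_ker.mpr (d2_d1 ρ β), h.2⟩

theorem Z1_le_X1 {ρ : Representation k G V} {L L' : Lvl G} : Z1 ρ L' ≤ X1 ρ L L' := by
  intro c hc
  refine ⟨hc.2, ?_⟩
  show d1 ρ c ∈ C2 k L V
  rw [LinearMap.mem_ker.mp hc.1]
  exact Submodule.zero_mem _

/-- the class of `dβ` -/
def toK2 (ρ : Representation k G V) {L L' : Lvl G} (h : Finer L L') :
    X1 ρ L L' →ₗ[k] K2 ρ h :=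
  LinearMap.codRestrict _
    (H2.mk ρ L ∘ₗ ((d1 ρ).restrict (p := X1 ρ L L') (q := Z2 ρ L) fun _ hx => X1.d1_mem hx))
    fun β => by
      rw [K2, LinearMap.mem_ker, LinearMap.comp_apply, Mor.H2_mk, H2.mk_eq_zero_iff]
      exact ⟨β.1, β.2.1, rfl⟩

theorem toK2_coe (ρ : Representation k G V) {L L' : Lvl G} (h : Finer L L') (β : X1 ρ L L') :
    (toK2 ρ h β : LC.H2 ρ L) = H2.mk ρ L ⟨d1 ρ β.1, X1.d1_mem β.2⟩ := rfl

theorem toK2_surjective (ρ : Representation k G V) {L L' : Lvl G} (h : Finer L L') :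
    Function.Surjective (toK2 ρ h) := by
  rintro ⟨x, hx⟩
  obtain ⟨z, rfl⟩ := H2.mk_surjective x
  rw [K2, LinearMap.mem_ker, Mor.H2_mk, H2.mk_eq_zero_iff] at hx
  obtain ⟨β, hβ, hd⟩ := hx
  have hd' : d1 ρ β = z.1 := hd
  refine ⟨⟨β, hβ, ?_⟩, ?_⟩
  · show d1 ρ β ∈ C2 k L V
    rw [hd']
    exact z.2.2
  · apply Subtype.ext
    rw [toK2_coe]
    congr 1
    exact Subtype.ext hd'

theorem toK2_eq_zero_iff (ρ : Representation k G V) {L L' : Lvl G} (h : Finer L L')
    (β : X1 ρ L L') : toK2 ρ h β = 0 ↔ ∃ b : G → V, IsLC₁ L b ∧ d1 ρ b = d1 ρ β.1 := by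
  rw [← Submodule.coe_eq_zero, toK2_coe, H2.mk_eq_zero_iff]

end

section Field

variable {k : Type*} [Field k] {G : Type*} [Group G] {V : Type*} [AddCommGroup V] [Module k V]
  {R : Type*} [AddCommGroup R] [Module k R]

variable (ρ : Representation k G V) {L L' : Lvl G} (h : Finer L L')

/-- The index computation.  `D` is a "ramification map" whose kernel consists of the `L`-constant
cochains. -/
theorem index_aux (hρ : Smooth L ρ) (D : X1 ρ L L' →ₗ[k] R)
    (hD : ∀ β : X1 ρ L L', D β = 0 ↔ IsLC₁ L β.1) [FiniteDimensional k R]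
    [FiniteDimensional k (LC.H1 ρ L')] :
    FiniteDimensional k (LC.H1 ρ L) ∧ FiniteDimensional k (K2 ρ h) ∧
      finrank k (LC.H1 ρ L') + finrank k (K2 ρ h) =
        finrank k (LC.H1 ρ L) + finrank k (LinearMap.range D) := by
  have hfin1 : FiniteDimensional k (LC.H1 ρ L) :=
    FiniteDimensional.of_injective _ (cmp_H1_injective ρ h)
  -- the map `H¹(L') → R`
  have hB : (B1 ρ).comap (Z1 ρ L').subtype ≤
      LinearMap.ker (D ∘ₗ Submodule.inclusion (Z1_le_X1 (ρ := ρ) (L := L) (L' := L'))) := by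
    intro c hc
    rw [LinearMap.mem_ker, LinearMap.comp_apply, hD]
    exact (B1_le_Z1 hρ hc).2
  let D1 : LC.H1 ρ L' →ₗ[k] R := Submodule.liftQ _ (D ∘ₗ Submodule.inclusion Z1_le_X1) hB
  have hD1mk : ∀ c : Z1 ρ L', D1 (H1.mk ρ L' c) = D ⟨c.1, Z1_le_X1 c.2⟩ := fun c => rfl
  have hrange1 : LinearMap.range D1 =
      LinearMap.range (D ∘ₗ Submodule.inclusion (Z1_le_X1 (ρ := ρ) (L := L) (L' := L'))) := by
    exact Submodule.range_liftQ _ _ _
  have hker1 : LinearMap.ker D1 = LinearMap.range (cmp ρ h).H1 := by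
    ext x
    obtain ⟨c, rfl⟩ := H1.mk_surjective x
    rw [LinearMap.mem_ker, hD1mk, hD, LinearMap.mem_range]
    constructor
    · intro hc
      exact ⟨H1.mk ρ L ⟨c.1, c.2.1, hc⟩, rfl⟩
    · rintro ⟨y, hy⟩
      obtain ⟨y, rfl⟩ := H1.mk_surjective y
      rw [Mor.H1_mk, ← sub_eq_zero, ← map_sub, H1.mk_eq_zero_iff] at hy
      obtain ⟨v, hv⟩ := hy
      have h1 : c.1 = y.1 - d0 ρ v := by
        ext g
        have := hv g
        rw [AddSubgroupClass.coe_sub, Pi.sub_apply, cmp_z1_coe] at this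
        rw [Pi.sub_apply, d0_apply, ← this]
        abel
      show IsLC₁ L c.1
      rw [h1]
      exact IsLC₁.sub y.2.2 (d0_mem_Z1 hρ v).2
  have e1 : finrank k (LinearMap.range D1) + finrank k (LC.H1 ρ L) = finrank k (LC.H1 ρ L') := by
    rw [← LinearMap.finrank_range_add_finrank_ker D1, hker1,
      LinearMap.finrank_range_of_inj (cmp_H1_injective ρ h)]
  -- the map `range D → K2`
  have hker : LinearMap.ker D.rangeRestrict ≤ LinearMap.ker (toK2 ρ h) := by
    intro β hβ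
    rw [LinearMap.ker_rangeRestrict, LinearMap.mem_ker, hD] at hβ
    rw [LinearMap.mem_ker, toK2_eq_zero_iff]
    exact ⟨β.1, hβ, rfl⟩
  let e := D.rangeRestrict.quotKerEquivOfSurjective D.surjective_rangeRestrict
  let s : LinearMap.range D →ₗ[k] K2 ρ h :=
    (Submodule.liftQ _ (toK2 ρ h) hker) ∘ₗ e.symm.toLinearMap
  have hs : ∀ β : X1 ρ L L', s (D.rangeRestrict β) = toK2 ρ h β := by
    intro β
    show (Submodule.liftQ _ (toK2 ρ h) hker) (e.symm (D.rangeRestrict β)) = _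
    have : e.symm (D.rangeRestrict β) = (LinearMap.ker D.rangeRestrict).mkQ β := by
      rw [LinearEquiv.symm_apply_eq]
      rfl
    rw [this]
    rfl
  have hssurj : Function.Surjective s := by
    intro x
    obtain ⟨β, rfl⟩ := toK2_surjective ρ h x
    exact ⟨_, hs β⟩
  have hfin2 : FiniteDimensional k (K2 ρ h) := Module.Finite.of_surjective s hssurj
  have hkers : finrank k (LinearMap.ker s) = finrank k (LinearMap.range D1) := by
    have hmap : (LinearMap.ker s).map (LinearMap.range D).subtype = LinearMap.range D1 := by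
      ext y
      rw [hrange1, Submodule.mem_map]
      constructor
      · rintro ⟨⟨_, β, rfl⟩, hβ, rfl⟩
        rw [LinearMap.mem_ker] at hβ
        have hβ' : s (D.rangeRestrict β) = 0 := hβ
        rw [hs, toK2_eq_zero_iff] at hβ'
        obtain ⟨b, hb, hbd⟩ := hβ'
        have hbX : b ∈ X1 ρ L L' := ⟨h.isLC₁ hb, d1_mem_C2 hρ hb⟩
        have hc : β.1 - b ∈ Z1 ρ L' := by
          refine ⟨?_, IsLC₁.sub β.2.1 (h.isLC₁ hb)⟩
          show d1 ρ (β.1 - b) = 0
          rw [map_sub, hbd, sub_self]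
        refine ⟨⟨β.1 - b, hc⟩, ?_⟩
        have h0 : D ⟨b, hbX⟩ = 0 := (hD _).mpr hb
        have h1 : Submodule.inclusion (Z1_le_X1 (ρ := ρ) (L := L) (L' := L')) ⟨β.1 - b, hc⟩ =
          β - ⟨b, hbX⟩ := rfl
        rw [LinearMap.comp_apply, h1, map_sub, h0, sub_zero]
        rfl
      · rintro ⟨c, rfl⟩
        refine ⟨D.rangeRestrict (Submodule.inclusion Z1_le_X1 c), ?_, rfl⟩
        rw [LinearMap.mem_ker, hs, toK2_eq_zero_iff]
        refine ⟨0, isLC₁_const 0, ?_⟩
        have h2 : d1 ρ c.1 = 0 := LinearMap.mem_ker.mp c.2.1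
        have h3 : d1 ρ (Submodule.inclusion (Z1_le_X1 (ρ := ρ) (L := L) (L' := L')) c).1 = 0 := h2
        rw [h3, map_zero]
    rw [← hmap]
    exact (LinearEquiv.finrank_eq (Submodule.equivMapOfInjective _
      (Submodule.subtype_injective _) _))
  refine ⟨hfin1, hfin2, ?_⟩
  have e2 := LinearMap.finrank_range_add_finrank_ker s
  rw [LinearMap.range_eq_top.mpr hssurj, finrank_top, hkers] at e2
  omega

end Field

end Fermat.Agent.CFT.D2
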