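import Mathlib
import Fermat.Agent.CFT.W.KummerS
import Fermat.Agent.DR.InertiaValue

/-!
# Normalised valuations on `ℚ_S` at places not above `S`
-/

set_option autoImplicit false

open NumberField IsDedekindDomain Pointwise
open Fermat.Agent.FrobExists
open Fermat.Agent.CFT.W

namespace Fermat.Agent.CFT.D2

/-- An algebraic closure of `ℚ`. -/
local notation "Qb" => AlgebraicClosure ℚ

section vv

/-- The valuation at `A`, normalised by `v(q) = 1`, for elements whose valuation is an integral
power of that of `q` (junk value `0` otherwise). -/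
noncomputable def vv (A : ValuationSubring Qb) (q : ℕ) (x : Qb) : ℤ :=
  open Classical in
  if h : ∃ j : ℤ, A.valuation x = A.valuation (q : Qb) ^ j then h.choose else 0

variable {A : ValuationSubring Qb} {q : ℕ} (hq : q.Prime) (hA : A.LiesOverPrime q)

include hA in
theorem val_q_lt_one : A.valuation (q : Qb) < 1 := by
  have h := hA
  unfold ValuationSubring.LiesOverPrime at h
  exact (ValuationSubring.mem_nonunits_iff _).1 h

include hq in
theorem val_q_ne_zero : A.valuation (q : Qb) ≠ 0 :=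
  (Valuation.ne_zero_iff _).2 (by exact_mod_cast hq.ne_zero)

include hq hA in
theorem val_q_zpow_inj {i j : ℤ} (h : A.valuation (q : Qb) ^ i = A.valuation (q : Qb) ^ j) :
    i = j :=
  (zpow_right_strictAnti₀ (zero_lt_iff.2 (val_q_ne_zero hq)) (val_q_lt_one hA)).injective h

include hq hA in
theorem vv_eq {x : Qb} {j : ℤ} (h : A.valuation x = A.valuation (q : Qb) ^ j) :
    vv A q x = j := by
  classical
  have h' : ∃ j : ℤ, A.valuation x = A.valuation (q : Qb) ^ j := ⟨j, h⟩
  rw [vv, dif_pos h']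
  exact val_q_zpow_inj hq hA (h'.choose_spec.symm.trans h)

/-- `x` has integral valuation at `A`. -/
def IsInt (A : ValuationSubring Qb) (q : ℕ) (x : Qb) : Prop :=
  A.valuation x = A.valuation (q : Qb) ^ vv A q x

include hq hA in
theorem isInt_of {x : Qb} {j : ℤ} (h : A.valuation x = A.valuation (q : Qb) ^ j) :
    IsInt A q x := by
  rw [IsInt, vv_eq hq hA h, h]

include hq hA in
theorem IsInt.mul {x y : Qb} (hx : IsInt A q x) (hy : IsInt A q y) :
    IsInt A q (x * y) ∧ vv A q (x * y) = vv A q x + vv A q y := by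
  have h : A.valuation (x * y) = A.valuation (q : Qb) ^ (vv A q x + vv A q y) := by
    rw [map_mul, hx, hy, ← zpow_add₀ (val_q_ne_zero hq)]
  exact ⟨isInt_of hq hA h, vv_eq hq hA h⟩

include hq hA in
theorem IsInt.inv {x : Qb} (hx : IsInt A q x) :
    IsInt A q x⁻¹ ∧ vv A q x⁻¹ = - vv A q x := by
  have h : A.valuation x⁻¹ = A.valuation (q : Qb) ^ (- vv A q x) := by
    rw [map_inv₀, hx, zpow_neg]
  exact ⟨isInt_of hq hA h, vv_eq hq hA h⟩

include hq hA in
theorem IsInt.pow {x : Qb} (hx : IsInt A q x) (n : ℕ) :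
    IsInt A q (x ^ n) ∧ vv A q (x ^ n) = n * vv A q x := by
  have h : A.valuation (x ^ n) = A.valuation (q : Qb) ^ ((n : ℤ) * vv A q x) := by
    rw [map_pow, hx, mul_comm, zpow_mul, zpow_natCast]
  exact ⟨isInt_of hq hA h, vv_eq hq hA h⟩

include hq hA in
theorem vv_one : vv A q 1 = 0 := vv_eq hq hA (by rw [map_one, zpow_zero])

include hq hA in
theorem isInt_one : IsInt A q 1 := isInt_of (j := 0) hq hA (by rw [map_one, zpow_zero])

include hq hA in
theorem isInt_of_inertia_fixed {x : Qb} (hx : x ≠ 0)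
    (hfix : ∀ σ ∈ A.inertiaSubgroupIn ℚ, σ x = x) : IsInt A q x := by
  obtain ⟨k, hk⟩ := Fermat.Agent.DR.InertiaValue.exists_zpow_of_inertia_fixed A hq hA hx hfix
  refine isInt_of (j := -k) hq hA ?_
  rw [map_mul, map_zpow₀] at hk
  rw [zpow_neg]
  exact eq_inv_of_mul_eq_one_left hk

theorem val_le_iff_div_mem (A : ValuationSubring Qb) (x : Qb) {y : Qb} (hy : y ≠ 0) :
    A.valuation x ≤ A.valuation y ↔ x / y ∈ A := by
  rw [← ValuationSubring.valuation_le_one_iff, map_div₀,
    div_le_one₀ (zero_lt_iff.2 ((Valuation.ne_zero_iff _).2 hy))]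

theorem val_smul (A : ValuationSubring Qb) (g : GQ) (x y : Qb) :
    (g • A).valuation (g x) = (g • A).valuation (g y) ↔ A.valuation x = A.valuation y := by
  have key : ∀ x y : Qb, (g • A).valuation (g x) ≤ (g • A).valuation (g y) ↔
      A.valuation x ≤ A.valuation y := by
    intro x y
    rcases eq_or_ne y 0 with rfl | hy
    · rw [map_zero, map_zero, map_zero, le_zero_iff, le_zero_iff, Valuation.zero_iff,
        Valuation.zero_iff, map_eq_zero]
    · have hy' : g y ≠ 0 := by rwa [Ne, map_eq_zero]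
      rw [val_le_iff_div_mem _ _ hy', val_le_iff_div_mem _ _ hy, ← map_div₀]
      exact Fermat.Agent.TWP.Place.smul_mem_smul A g
  rw [le_antisymm_iff, le_antisymm_iff, key, key]

include hq hA in
theorem vv_smul (g : GQ) {x : Qb} (hx : IsInt A q x) :
    IsInt (g • A) q (g x) ∧ vv (g • A) q (g x) = vv A q x := by
  have hA' := smul_liesOverPrime g A hA
  have h : (g • A).valuation (g x) = (g • A).valuation (q : Qb) ^ (vv A q x) := by
    have h1 : A.valuation x = A.valuation ((q : Qb) ^ (vv A q x)) := by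
      rw [map_zpow₀]
      exact hx
    rw [← val_smul A g, map_zpow₀, map_natCast, map_zpow₀] at h1
    exact h1
  exact ⟨isInt_of hq hA' h, vv_eq hq hA' h⟩

end vv

section QS

variable {S : Finset Nat.Primes} {A : ValuationSubring Qb} {q : Nat.Primes} (hq : q ∉ S)
  (hA : A.LiesOverPrime (q : ℕ))

include hq hA in
theorem isInt_of_mem_QS {x : Qb} (hx : x ≠ 0) (hxS : x ∈ QS S) : IsInt A q x :=
  isInt_of_inertia_fixed q.2 hA hx (fun σ hσ => hxS q hq A hA σ hσ)

include hq hA in
/-- comparison with the normalised valuation of a number field in `ℚ_S` -/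
theorem vv_eq_ord {L : IntermediateField ℚ Qb} [FiniteDimensional ℚ L] (hL : L ≤ QS S)
    (x : Lˣ) : vv A q ((x : L) : Qb) = ord (placeL L A q.2.ne_zero hA) x := by
  have hne : ∀ y : Lˣ, ((y : L) : Qb) ≠ 0 := fun y h => y.ne_zero (Subtype.ext h)
  have hint : ∀ y : Lˣ, IsInt A q ((y : L) : Qb) := fun y =>
    isInt_of_mem_QS hq hA (hne y) (hL (y : L).2)
  have hq0 : (((q : ℕ) : L)) ≠ 0 := by exact_mod_cast q.2.ne_zero
  let qL : Lˣ := Units.mk0 ((q : ℕ) : L) hq0
  have key : ∀ y : Lˣ, ord (placeL L A q.2.ne_zero hA) y =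
      vv A q ((y : L) : Qb) * ord (placeL L A q.2.ne_zero hA) qL := by
    intro y
    rw [← ord_zpow, ← val_eq_iff_ord]
    have h1 := hint y
    rw [IsInt] at h1
    have h2 : algebraMap L Qb ((qL ^ (vv A q ((y : L) : Qb)) : Lˣ) : L) =
        ((q : ℕ) : Qb) ^ (vv A q ((y : L) : Qb)) := by
      rw [Units.val_zpow_eq_zpow_val, map_zpow₀]
      congr 1
    rw [h2, map_zpow₀]
    exact h1
  obtain ⟨π, hπ⟩ := exists_ord_eq_one (placeL L A q.2.ne_zero hA)
  have h1 := key π
  rw [hπ] at h1
  have h2 : 0 < ord (placeL L A q.2.ne_zero hA) qL := by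
    rw [ord_pos_iff, valuation_lt_one_iff]
    exact val_q_lt_one hA
  have h3 : ord (placeL L A q.2.ne_zero hA) qL = 1 := by
    rcases Int.isUnit_iff.1 (IsUnit.of_mul_eq_one_right _ h1.symm) with h | h
    · exact h
    · omega
  rw [key x, h3, mul_one]

end QS

end Fermat.Agent.CFT.D2
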