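import Mathlib
import Fermat.Agent.CFT.D2.Index
import Fermat.Agent.CFT.D2.Val
import Fermat.Agent.CFT.LC.Levels
import Fermat.Agent.CFT.Hasse.Hilbert90

/-!
# Kummer generators attached to cochains with `S`-constant coboundary
-/

set_option autoImplicit false

open NumberField IsDedekindDomain Pointwise
open Fermat.Agent.FrobExists
open Fermat.Agent.CFT.W Fermat.Agent.CFT.LC

namespace Fermat.Agent.CFT.D2

/-- An algebraic closure of `ℚ`. -/
local notation "Qb" => AlgebraicClosure ℚ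

section ez

variable {p : ℕ} [hp : Fact p.Prime]

/-- `ζ ^ n` for `n : ZMod p` -/
noncomputable def ez (ζ : Qbˣ) (n : ZMod p) : Qbˣ := ζ ^ n.val

variable {ζ : Qbˣ}

@[simp] theorem ez_zero : ez ζ (0 : ZMod p) = 1 := by
  rw [ez, ZMod.val_zero, pow_zero]

theorem ez_natCast (hζ : ζ ^ p = 1) (n : ℕ) : ez ζ (n : ZMod p) = ζ ^ n := by
  rw [ez, ZMod.val_natCast]
  conv_rhs => rw [← Nat.mod_add_div n p, pow_add, pow_mul, hζ, one_pow, mul_one]

theorem ez_add (hζ : ζ ^ p = 1) (m n : ZMod p) : ez ζ (m + n) = ez ζ m * ez ζ n := by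
  have h : m + n = ((m.val + n.val : ℕ) : ZMod p) := by
    push_cast
    rw [ZMod.natCast_zmod_val, ZMod.natCast_zmod_val]
  rw [h, ez_natCast hζ, pow_add, ez, ez]

theorem ez_neg (hζ : ζ ^ p = 1) (m : ZMod p) : ez ζ (-m) = (ez ζ m)⁻¹ := by
  rw [eq_inv_iff_mul_eq_one, ← ez_add hζ, neg_add_cancel, ez_zero]

theorem ez_sub (hζ : ζ ^ p = 1) (m n : ZMod p) : ez ζ (m - n) = ez ζ m / ez ζ n := by
  rw [sub_eq_add_neg, ez_add hζ, ez_neg hζ, div_eq_mul_inv]

theorem ez_pow (hζ : ζ ^ p = 1) (m : ZMod p) : ez ζ m ^ p = 1 := by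
  rw [ez, ← pow_mul, mul_comm, pow_mul, hζ, one_pow]

theorem ez_eq_one_iff (hζ : IsPrimitiveRoot ζ p) {m : ZMod p} : ez ζ m = 1 ↔ m = 0 := by
  rw [ez, hζ.pow_eq_one_iff_dvd, ← ZMod.natCast_eq_zero_iff, ZMod.natCast_zmod_val]

theorem ez_injective (hζ : IsPrimitiveRoot ζ p) {m n : ZMod p} (h : ez ζ m = ez ζ n) : m = n := by
  rw [← sub_eq_zero, ← ez_eq_one_iff hζ, ez_sub hζ.pow_eq_one, h, div_self']

theorem exists_ez (hζ : IsPrimitiveRoot ζ p) {x : Qbˣ} (hx : x ^ p = 1) :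
    ∃ n : ZMod p, x = ez ζ n := by
  have : NeZero p := ⟨hp.out.ne_zero⟩
  have hζ' := IsPrimitiveRoot.coe_units_iff.2 hζ
  obtain ⟨i, -, hi⟩ := hζ'.eq_pow_of_pow_eq_one (ξ := (x : Qb)) (by
    rw [← Units.val_pow_eq_pow_val, hx, Units.val_one])
  refine ⟨i, ?_⟩
  rw [ez_natCast hζ.pow_eq_one]
  exact Units.ext (by rw [Units.val_pow_eq_pow_val, hi])

theorem smul_ez {g : GQ} (hg : g • ζ = ζ) (m : ZMod p) : g • ez ζ m = ez ζ m := by
  rw [ez, smul_pow', hg]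

end ez

section Kum

variable {p : ℕ} [hp : Fact p.Prime]

/-- The trivial one-dimensional representation. -/
abbrev triv (p : ℕ) [Fact p.Prime] (G : Type) [Group G] : Representation (ZMod p) G (ZMod p) :=
  Representation.trivial (ZMod p) G (ZMod p)

variable {S : Finset Nat.Primes} {U : Subgroup GQ}

/-- the `S`-levels of `U` -/
noncomputable abbrev lS (S : Finset Nat.Primes) (U : Subgroup GQ) : Lvl U := (unram S).restrict U

/-- all levels of `U` -/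
noncomputable abbrev lQ (U : Subgroup GQ) : Lvl U := (krull ℚ Qb).restrict U

/-- `F` witnesses that `dβ` is `S`-level-constant. -/
structure KumW (S : Finset Nat.Primes) (U : Subgroup GQ) (β : U → ZMod p)
    (F : IntermediateField ℚ Qb) : Prop where
  unr : F.IsUnramifiedOutside S
  nrm : IsNorm F
  le : F.fixingSubgroup ≤ U
  right : ∀ g s : U, (s : GQ) ∈ F.fixingSubgroup → β (g * s) = β g + (β s - β 1)
  left : ∀ g s : U, (s : GQ) ∈ F.fixingSubgroup → β (s * g) = β g + (β s - β 1)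

theorem exists_field (hU : (unram S).IsOpen U) : ∃ F : IntermediateField ℚ Qb,
    F.IsUnramifiedOutside S ∧ IsNorm F ∧ F.fixingSubgroup ≤ U := by
  obtain ⟨_, ⟨F, hF, hF', rfl⟩, h⟩ := hU
  exact ⟨F, hF, hF', h⟩

theorem exists_kumW (hU : (unram S).IsOpen U) {β : U → ZMod p}
    (hβ : IsLC₂ (lS S U) (d1 (triv p U) β)) : ∃ F, KumW S U β F := by
  obtain ⟨F₁, h1, h1', h1le⟩ := exists_field hU
  obtain ⟨_, ⟨_, ⟨F₂, h2, h2', rfl⟩, rfl⟩, h⟩ := hβ
  have hle₁ : (F₁ ⊔ F₂).fixingSubgroup ≤ F₁.fixingSubgroup :=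
    IntermediateField.fixingSubgroup_antitone le_sup_left
  have hle₂ : (F₁ ⊔ F₂).fixingSubgroup ≤ F₂.fixingSubgroup :=
    IntermediateField.fixingSubgroup_antitone le_sup_right
  refine ⟨F₁ ⊔ F₂, h1.sup h2, h1'.sup h2', hle₁.trans h1le, ?_, ?_⟩
  · intro g s hs
    have := h g 1 1 (Subgroup.one_mem _) s (hle₂ hs)
    simp only [d1_apply, Representation.trivial, mul_one, one_mul, MonoidHom.one_apply,
      Module.End.one_apply] at this
    linear_combination -this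
  · intro g s hs
    have := h 1 g s (hle₂ hs) 1 (Subgroup.one_mem _)
    simp only [d1_apply, Representation.trivial, mul_one, one_mul, MonoidHom.one_apply,
      Module.End.one_apply] at this
    linear_combination -this

namespace KumW

variable {β β' : U → ZMod p} {F F' : IntermediateField ℚ Qb}

theorem mono (h : KumW S U β F) (hF : F'.IsUnramifiedOutside S) (hF' : IsNorm F') (hle : F ≤ F') :
    KumW S U β F' where
  unr := hF
  nrm := hF'
  le := (IntermediateField.fixingSubgroup_antitone hle).trans h.le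
  right g s hs := h.right g s (IntermediateField.fixingSubgroup_antitone hle hs)
  left g s hs := h.left g s (IntermediateField.fixingSubgroup_antitone hle hs)

theorem sup_left (h : KumW S U β F) (h' : KumW S U β' F') : KumW S U β (F ⊔ F') :=
  h.mono (h.unr.sup h'.unr) (h.nrm.sup h'.nrm) le_sup_left

theorem sup_right (h : KumW S U β F) (h' : KumW S U β' F') : KumW S U β' (F ⊔ F') :=
  h'.mono (h.unr.sup h'.unr) (h.nrm.sup h'.nrm) le_sup_right

theorem add (h : KumW S U β F) (h' : KumW S U β' F) : KumW S U (β + β') F where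
  unr := h.unr
  nrm := h.nrm
  le := h.le
  right g s hs := by
    simp only [Pi.add_apply, h.right g s hs, h'.right g s hs]; ring
  left g s hs := by
    simp only [Pi.add_apply, h.left g s hs, h'.left g s hs]; ring

theorem sub (h : KumW S U β F) (h' : KumW S U β' F) : KumW S U (β - β') F where
  unr := h.unr
  nrm := h.nrm
  le := h.le
  right g s hs := by
    simp only [Pi.sub_apply, h.right g s hs, h'.right g s hs]; ring
  left g s hs := by
    simp only [Pi.sub_apply, h.left g s hs, h'.left g s hs]; ring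

theorem mono_S {T : Finset Nat.Primes} (hST : S ⊆ T) (h : KumW S U β F) : KumW T U β F where
  unr := h.unr.mono hST
  nrm := h.nrm
  le := h.le
  right := h.right
  left := h.left

theorem map_mul (h : KumW S U β F) (s t : U) (hs : (s : GQ) ∈ F.fixingSubgroup) :
    β (s * t) - β 1 = (β s - β 1) + (β t - β 1) := by
  rw [h.left t s hs]; ring

end KumW

/-- `α` is a Kummer generator of `β` over a field unramified outside `S`. -/
def IsKum (S : Finset Nat.Primes) (U : Subgroup GQ) (ζ : Qbˣ) (β : U → ZMod p) (α : Qbˣ) : Prop :=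
  ∃ F : IntermediateField ℚ Qb, KumW S U β F ∧
    ∀ s : U, (s : GQ) ∈ F.fixingSubgroup → (s : GQ) • α = ez ζ (β s - β 1) * α

theorem coe_smul (g : GQ) (x : Qbˣ) : ((g • x : Qbˣ) : Qb) = g (x : Qb) := rfl

variable {ζ : Qbˣ}

theorem exists_isKum (hU : (unram S).IsOpen U) (hζ : IsPrimitiveRoot ζ p)
    (hUζ : ∀ u ∈ U, u • ζ = ζ) {β : U → ZMod p} (hβ : IsLC₁ (lQ U) β)
    (hβ2 : IsLC₂ (lS S U) (d1 (triv p U) β)) : ∃ α, IsKum S U ζ β α := by
  obtain ⟨F, hF⟩ := exists_kumW hU hβ2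
  let V : Subgroup GQ := F.fixingSubgroup
  have h90 : Fermat.Agent.CFT.Hasse.H90 (krull ℚ Qb) V Qbˣ := by
    refine Fermat.Agent.CFT.Hasse.h90_gal (krull ℚ Qb) ?_ V
    rintro _ ⟨E, hE, hE', rfl⟩
    exact ⟨E, hE, le_rfl⟩
  obtain ⟨α, hα⟩ := h90 (fun v => ez ζ (β ⟨v, hF.le v.2⟩ - β 1)) (by
      intro v w
      rw [smul_ez (hUζ v (hF.le v.2)), ← ez_add hζ.pow_eq_one]
      congr 1
      exact hF.map_mul ⟨v, hF.le v.2⟩ ⟨w, hF.le w.2⟩ v.2) (by
      obtain ⟨_, ⟨N, hN, rfl⟩, h⟩ := hβ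
      refine ⟨_, ⟨N, hN, rfl⟩, fun g s hs => ?_⟩
      have h1 := h ⟨g, hF.le g.2⟩ ⟨s, hF.le s.2⟩ hs
      have h2 : (⟨g, hF.le g.2⟩ * ⟨s, hF.le s.2⟩ : U) = ⟨((g * s : V) : GQ), hF.le (g * s).2⟩ := rfl
      rw [h2] at h1
      simp only [h1])
  refine ⟨α, F, hF, fun s hs => ?_⟩
  have h1 := hα ⟨s, hs⟩
  have h2 : ((⟨s, hs⟩ : V) : GQ) = s := rfl
  simp only [h2] at h1
  rw [eq_div_iff_mul_eq'] at h1
  exact h1.symm

theorem mem_QS_of_fixed {F : IntermediateField ℚ Qb} (hF : F.IsUnramifiedOutside S) {x : Qb}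
    (hx : ∀ s ∈ F.fixingSubgroup, s x = x) : x ∈ QS S :=
  fun q hq A hA σ hσ => hx σ (hF.2 q hq A hA hσ)

namespace IsKum

variable {β β' : U → ZMod p} {α α' : Qbˣ}

theorem pow_fixed (hζ : IsPrimitiveRoot ζ p) {F : IntermediateField ℚ Qb} (hF : KumW S U β F)
    (h : ∀ s : U, (s : GQ) ∈ F.fixingSubgroup → (s : GQ) • α = ez ζ (β s - β 1) * α) :
    ∀ s ∈ F.fixingSubgroup, s (((α ^ p : Qbˣ)) : Qb) = ((α ^ p : Qbˣ) : Qb) := by
  intro s hs
  have h1 := h ⟨s, hF.le hs⟩ hs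
  rw [← coe_smul, smul_pow', h1, mul_pow, ez_pow hζ.pow_eq_one, one_mul]

theorem pow_mem_QS (hζ : IsPrimitiveRoot ζ p) (h : IsKum S U ζ β α) :
    (((α ^ p : Qbˣ)) : Qb) ∈ QS S := by
  obtain ⟨F, hF, h1⟩ := h
  exact mem_QS_of_fixed hF.unr (pow_fixed hζ hF h1)

theorem div_mem_QS (h : IsKum S U ζ β α) (h' : IsKum S U ζ β α') :
    (((α' / α : Qbˣ)) : Qb) ∈ QS S := by
  obtain ⟨F, hF, h1⟩ := h
  obtain ⟨F', hF', h2⟩ := h'
  refine mem_QS_of_fixed (hF.unr.sup hF'.unr) fun s hs => ?_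
  have hs1 : s ∈ F.fixingSubgroup := IntermediateField.fixingSubgroup_antitone le_sup_left hs
  have hs2 : s ∈ F'.fixingSubgroup := IntermediateField.fixingSubgroup_antitone le_sup_right hs
  rw [← coe_smul, smul_div', h1 ⟨s, hF.le hs1⟩ hs1, h2 ⟨s, hF.le hs1⟩ hs2, mul_div_mul_left_eq_div]

theorem mul (hζ : IsPrimitiveRoot ζ p) (h : IsKum S U ζ β α) (h' : IsKum S U ζ β' α') :
    IsKum S U ζ (β + β') (α * α') := by
  obtain ⟨F, hF, h1⟩ := h
  obtain ⟨F', hF', h2⟩ := h'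
  refine ⟨F ⊔ F', (hF.sup_left hF').add (hF.sup_right hF'), fun s hs => ?_⟩
  have hs1 : (s : GQ) ∈ F.fixingSubgroup :=
    IntermediateField.fixingSubgroup_antitone le_sup_left hs
  have hs2 : (s : GQ) ∈ F'.fixingSubgroup :=
    IntermediateField.fixingSubgroup_antitone le_sup_right hs
  rw [smul_mul', h1 s hs1, h2 s hs2]
  have : (β + β') s - (β + β') 1 = (β s - β 1) + (β' s - β' 1) := by
    simp only [Pi.add_apply]; ring
  rw [this, ez_add hζ.pow_eq_one, mul_mul_mul_comm]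

theorem div (hζ : IsPrimitiveRoot ζ p) (h : IsKum S U ζ β α) (h' : IsKum S U ζ β' α') :
    IsKum S U ζ (β - β') (α / α') := by
  obtain ⟨F, hF, h1⟩ := h
  obtain ⟨F', hF', h2⟩ := h'
  refine ⟨F ⊔ F', (hF.sup_left hF').sub (hF.sup_right hF'), fun s hs => ?_⟩
  have hs1 : (s : GQ) ∈ F.fixingSubgroup :=
    IntermediateField.fixingSubgroup_antitone le_sup_left hs
  have hs2 : (s : GQ) ∈ F'.fixingSubgroup :=
    IntermediateField.fixingSubgroup_antitone le_sup_right hs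
  rw [smul_div', h1 s hs1, h2 s hs2]
  have : (β - β') s - (β - β') 1 = (β s - β 1) - (β' s - β' 1) := by
    simp only [Pi.sub_apply]; ring
  rw [this, ez_sub hζ.pow_eq_one (β s - β 1) (β' s - β' 1), div_mul_div_comm]

theorem mono_S {T : Finset Nat.Primes} (hST : S ⊆ T) (h : IsKum S U ζ β α) :
    IsKum T U ζ β α := by
  obtain ⟨F, hF, h1⟩ := h
  exact ⟨F, hF.mono_S hST, h1⟩

/-- conjugation invariance -/
theorem smul (hUζ : ∀ u ∈ U, u • ζ = ζ) (h : IsKum S U ζ β α) {u : GQ} (hu : u ∈ U) :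
    IsKum S U ζ β (u • α) := by
  obtain ⟨F, hF, h1⟩ := h
  refine ⟨F, hF, fun s hs => ?_⟩
  have hnorm := hF.nrm.normal_fixingSubgroup
  have hs' : u⁻¹ * (s : GQ) * u ∈ F.fixingSubgroup := by
    have := hnorm.conj_mem _ hs u⁻¹
    simpa using this
  have h2 := h1 ⟨u⁻¹ * (s : GQ) * u, hF.le hs'⟩ hs'
  have h3 : β ⟨u⁻¹ * (s : GQ) * u, hF.le hs'⟩ - β 1 = β s - β 1 := by
    have e1 := hF.right ⟨u, hu⟩ ⟨u⁻¹ * (s : GQ) * u, hF.le hs'⟩ hs'
    have e2 := hF.left ⟨u, hu⟩ s hs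
    have e3 : (⟨u, hu⟩ * ⟨u⁻¹ * (s : GQ) * u, hF.le hs'⟩ : U) = s * ⟨u, hu⟩ := by
      apply Subtype.ext
      show u * (u⁻¹ * (s : GQ) * u) = s * u
      group
    rw [e3, e2] at e1
    linear_combination -e1
  rw [h3] at h2
  have h4 : (s : GQ) • u • α = u • ((u⁻¹ * (s : GQ) * u) • α) := by
    rw [smul_smul, smul_smul]
    congr 1
    group
  rw [h4]
  change u • ((u⁻¹ * (s : GQ) * u) • α) = _
  have h5 : (u⁻¹ * (s : GQ) * u) • α = ez ζ (β s - β 1) * α := h2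
  rw [h5, smul_mul', smul_ez (hUζ u hu)]

/-- If `β` itself is `S`-constant then `1` is a Kummer generator. -/
theorem one_of_isLC (hU : (unram S).IsOpen U) (h : IsLC₁ (lS S U) β) : IsKum S U ζ β 1 := by
  obtain ⟨F₁, h1, h1', h1le⟩ := exists_field hU
  obtain ⟨_, ⟨_, ⟨F₂, h2, h2', rfl⟩, rfl⟩, h⟩ := h
  have hle₁ : (F₁ ⊔ F₂).fixingSubgroup ≤ F₁.fixingSubgroup :=
    IntermediateField.fixingSubgroup_antitone le_sup_left
  have hle₂ : (F₁ ⊔ F₂).fixingSubgroup ≤ F₂.fixingSubgroup :=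
    IntermediateField.fixingSubgroup_antitone le_sup_right
  have hr : ∀ g s : U, (s : GQ) ∈ (F₁ ⊔ F₂).fixingSubgroup → β (g * s) = β g :=
    fun g s hs => h g s (hle₂ hs)
  have h1s : ∀ s : U, (s : GQ) ∈ (F₁ ⊔ F₂).fixingSubgroup → β s = β 1 := fun s hs => by
    have := hr 1 s hs
    rwa [one_mul] at this
  have hnorm := (h1'.sup h2').normal_fixingSubgroup
  refine ⟨F₁ ⊔ F₂, ⟨h1.sup h2, h1'.sup h2', hle₁.trans h1le, ?_, ?_⟩, ?_⟩
  · intro g s hs
    rw [hr g s hs, h1s s hs, sub_self, add_zero]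
  · intro g s hs
    have e : s * g = g * (g⁻¹ * s * g) := by group
    rw [e, hr g _ ?_, h1s s hs, sub_self, add_zero]
    have := hnorm.conj_mem _ hs (g : GQ)⁻¹
    simpa using this
  · intro s hs
    rw [h1s s hs, sub_self, ez_zero, smul_one, one_mul]

/-- If the Kummer generator lies in `ℚ_S`, then `β` is `S`-constant. -/
theorem isLC_of_mem_QS (hζ : IsPrimitiveRoot ζ p) (h : IsKum S U ζ β α)
    (hα : (α : Qb) ∈ QS S) : IsLC₁ (lS S U) β := by
  obtain ⟨F, hF, h1⟩ := h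
  obtain ⟨F', hF', hn, hle, hmem⟩ := exists_normal_mem hF.unr hα
  refine ⟨_, ⟨_, ⟨F', hF', hn, rfl⟩, rfl⟩, fun g s hs => ?_⟩
  have hs' : (s : GQ) ∈ F.fixingSubgroup := IntermediateField.fixingSubgroup_antitone hle hs
  have h2 := h1 s hs'
  have h3 : (s : GQ) • α = α := Units.ext ((IntermediateField.mem_fixingSubgroup_iff _ _).1 hs _ hmem)
  rw [h3] at h2
  have h4 : ez ζ (β s - β 1) = 1 := by
    have h5 : (1 : Qbˣ) * α = ez ζ (β s - β 1) * α := by rw [one_mul]; exact h2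
    exact (mul_right_cancel h5).symm
  rw [ez_eq_one_iff hζ] at h4
  rw [hF.right g s hs', h4, add_zero]

theorem mem_QS (hζ : IsPrimitiveRoot ζ p) (hpS : ⟨p, hp.out⟩ ∈ S) (h : IsKum S U ζ β α)
    (hdvd : ∀ q : Nat.Primes, q ∉ S → ∀ A : ValuationSubring Qb, A.LiesOverPrime (q : ℕ) →
      (p : ℤ) ∣ vv A q ((α ^ p : Qbˣ) : Qb)) : (α : Qb) ∈ QS S := by
  obtain ⟨F, hF, h1⟩ := h
  have hfd : FiniteDimensional ℚ F := hF.unr.1
  have hFQ : F ≤ QS S := (isUnramifiedOutside_iff.1 hF.unr).2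
  have : NeZero p := ⟨hp.out.ne_zero⟩
  have hmem : (((α ^ p : Qbˣ)) : Qb) ∈ F := by
    have h2 := InfiniteGalois.fixedField_fixingSubgroup F
    rw [← h2, IntermediateField.mem_fixedField_iff]
    exact pow_fixed hζ hF h1
  let a : Fˣ := Units.mk0 ⟨_, hmem⟩ (fun h => (α ^ p).ne_zero (congrArg Subtype.val h))
  refine root_mem_QS hFQ (n := p) ?_ (a := a) ?_ (b := (α : Qb)) ?_
  · intro q hq hqp
    have h1 := (Nat.prime_dvd_prime_iff_eq q.2 hp.out).1 hqp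
    exact hq (by
      have : q = ⟨p, hp.out⟩ := Subtype.ext h1
      rwa [this])
  · intro v hv
    obtain ⟨q, hq, A, hA, rfl⟩ := exists_place_eq_of_notMem_SL (algebraMap F Qb) hv
    have := vv_eq_ord hq hA hFQ a
    rw [← this]
    exact hdvd q hq A hA
  · show (α : Qb) ^ p = ((α ^ p : Qbˣ) : Qb)
    rw [Units.val_pow_eq_pow_val]

theorem isLC_of_dvd (hζ : IsPrimitiveRoot ζ p) (hpS : ⟨p, hp.out⟩ ∈ S) (h : IsKum S U ζ β α)
    (hdvd : ∀ q : Nat.Primes, q ∉ S → ∀ A : ValuationSubring Qb, A.LiesOverPrime (q : ℕ) →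
      (p : ℤ) ∣ vv A q ((α ^ p : Qbˣ) : Qb)) : IsLC₁ (lS S U) β :=
  h.isLC_of_mem_QS hζ (h.mem_QS hζ hpS hdvd)

/-- The valuation of `α^p` modulo `p` does not depend on the choice of `α`. -/
theorem vv_sub_dvd (hζ : IsPrimitiveRoot ζ p) (h : IsKum S U ζ β α) (h' : IsKum S U ζ β α')
    {q : Nat.Primes} (hq : q ∉ S) {A : ValuationSubring Qb} (hA : A.LiesOverPrime (q : ℕ)) :
    (p : ℤ) ∣ vv A q ((α' ^ p : Qbˣ) : Qb) - vv A q ((α ^ p : Qbˣ) : Qb) := by
  have h1 := isInt_of_mem_QS hq hA (α ^ p).ne_zero (h.pow_mem_QS hζ)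
  have h2 := isInt_of_mem_QS hq hA (α' / α).ne_zero (h.div_mem_QS h')
  have h3 := h2.pow q.2 hA p
  have h4 := h1.mul q.2 hA h3.1
  have h5 : ((α ^ p : Qbˣ) : Qb) * (((α' / α : Qbˣ)) : Qb) ^ p = ((α' ^ p : Qbˣ) : Qb) := by
    rw [← Units.val_pow_eq_pow_val, ← Units.val_mul, ← mul_pow, mul_div_cancel]
  rw [h5] at h4
  rw [h4.2, h3.2]
  exact ⟨vv A q (((α' / α : Qbˣ)) : Qb), by ring⟩

/-- The valuation of `α^p` modulo `p` is invariant under `U`. -/
theorem vv_smul_dvd (hζ : IsPrimitiveRoot ζ p) (hUζ : ∀ u ∈ U, u • ζ = ζ) (h : IsKum S U ζ β α)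
    {q : Nat.Primes} (hq : q ∉ S) {A : ValuationSubring Qb} (hA : A.LiesOverPrime (q : ℕ))
    {u : GQ} (hu : u ∈ U) :
    (p : ℤ) ∣ vv (u • A) q ((α ^ p : Qbˣ) : Qb) - vv A q ((α ^ p : Qbˣ) : Qb) := by
  have h1 := (h.smul hUζ (U.inv_mem hu))
  have h2 := h.vv_sub_dvd hζ h1 hq hA
  have h3 : vv (u • A) q ((α ^ p : Qbˣ) : Qb) = vv A q (((u⁻¹ • α) ^ p : Qbˣ) : Qb) := by
    have h4 := isInt_of_mem_QS hq hA ((u⁻¹ • α) ^ p).ne_zero (h1.pow_mem_QS hζ)
    have h5 := (vv_smul q.2 hA u h4).2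
    rw [← h5, ← coe_smul, smul_pow', smul_inv_smul]
  rw [h3]
  exact h2

end IsKum

end Kum

end Fermat.Agent.CFT.D2
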