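import Mathlib
import Fermat.Agent.CFT.D2.Kum

/-!
# Transitivity of `Gal(ℚ̄/E)` on the places above a prime of `E`
-/

set_option autoImplicit false

open NumberField IsDedekindDomain Pointwise
open Fermat.Agent.FrobExists
open Fermat.Agent.CFT.W Fermat.Agent.CFT.LC

namespace Fermat.Agent.CFT.D2

/-- An algebraic closure of `ℚ`. -/
local notation "Qb" => AlgebraicClosure ℚ

section

variable (q : ℕ) [hq : Fact q.Prime]

theorem padicPlace_liesOverPrime : (padicPlace q).LiesOverPrime q := by
  have h := padicIntegers_liesOverPrime q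
  unfold ValuationSubring.LiesOverPrime at h ⊢
  rw [ValuationSubring.mem_nonunits_iff_or] at h ⊢
  rcases h with h | h
  · exact absurd h (by exact_mod_cast hq.out.ne_zero)
  · right
    intro h'
    apply h
    have := h'
    rw [padicPlace, ValuationSubring.mem_comap] at this
    simpa using this

theorem mem_nonunits_smul_padicPlace (σ : GQ) (x : Qb) :
    x ∈ (σ • padicPlace q).nonunits ↔ padicEmbedding q (σ⁻¹ x) ∈ (padicIntegers q).nonunits := by
  have h1 := Fermat.Agent.TWP.Place.apply_mem_nonunits_smul (padicPlace q) σ (x := σ⁻¹ x)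
  rw [show σ (σ⁻¹ x) = x from σ.apply_symm_apply x] at h1
  rw [h1, ValuationSubring.mem_nonunits_iff_or, ValuationSubring.mem_nonunits_iff_or,
    padicPlace, ValuationSubring.mem_comap, map_eq_zero]
  have h3 : (padicEmbedding q).toRingHom (σ⁻¹ x)⁻¹ = (padicEmbedding q (σ⁻¹ x))⁻¹ :=
    map_inv₀ (padicEmbedding q) _
  rw [h3]
  have h4 : (padicEmbedding q) (σ⁻¹ x) = 0 ↔ x = 0 := by rw [map_eq_zero, map_eq_zero]
  rw [h4]

theorem placeL_smul_padicPlace (L : IntermediateField ℚ Qb) [FiniteDimensional ℚ L] (σ : GQ)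
    (hA : (σ • padicPlace q).LiesOverPrime q) :
    placeL L (σ • padicPlace q) hq.out.ne_zero hA = pl (emb q L σ⁻¹) := by
  rw [pl, place_eq_iff]
  intro x
  exact mem_nonunits_smul_padicPlace q σ _

theorem loc_smul_padicPlace (τ : PadicAlgCl q ≃ₐ[ℚ_[q]] PadicAlgCl q) :
    localGaloisToGlobal q τ • padicPlace q = padicPlace q :=
  localGaloisToGlobal_mem_decompositionSubgroup q τ

end

/-- The places above a given prime of `L` are permuted transitively by `L.fixingSubgroup`. -/
theorem exists_smul_eq_of_placeL_eq (L : IntermediateField ℚ Qb) [FiniteDimensional ℚ L] {q : ℕ}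
    (hq : q.Prime) {A A' : ValuationSubring Qb} (hA : A.LiesOverPrime q)
    (hA' : A'.LiesOverPrime q) (h : placeL L A hq.ne_zero hA = placeL L A' hq.ne_zero hA') :
    ∃ u ∈ L.fixingSubgroup, A' = u • A := by
  have : Fact q.Prime := ⟨hq⟩
  obtain ⟨σ, rfl⟩ := exists_smul_eq (padicPlace q) A hq (padicPlace_liesOverPrime q) hA
  obtain ⟨σ', rfl⟩ := exists_smul_eq (padicPlace q) A' hq (padicPlace_liesOverPrime q) hA'
  rw [placeL_smul_padicPlace, placeL_smul_padicPlace, pl_emb_eq_iff] at h
  obtain ⟨τ, u, hu, h⟩ := h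
  refine ⟨u⁻¹, inv_mem hu, ?_⟩
  have h1 : σ' = u⁻¹ * σ * (localGaloisToGlobal q τ)⁻¹ := by
    have := congrArg (·⁻¹) h
    simp only [inv_inv, mul_inv_rev] at this
    rw [this]
    group
  have h2 : (localGaloisToGlobal q τ)⁻¹ • padicPlace q = padicPlace q := by
    rw [inv_smul_eq_iff]
    exact (loc_smul_padicPlace q τ).symm
  rw [h1, mul_smul, mul_smul, h2]

/-- the place of `L` determines the prime `q` -/
theorem prime_eq_of_placeL_eq (L : IntermediateField ℚ Qb) [FiniteDimensional ℚ L] {q q' : ℕ}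
    (hq : q.Prime) (hq' : q'.Prime) {A A' : ValuationSubring Qb} (hA : A.LiesOverPrime q)
    (hA' : A'.LiesOverPrime q') (h : placeL L A hq.ne_zero hA = placeL L A' hq'.ne_zero hA') :
    q = q' := by
  have h1 := natCast_mem_place (algebraMap L Qb) hq.ne_zero hA
  have h2 := natCast_mem_place (algebraMap L Qb) hq'.ne_zero hA'
  have h' : place A (algebraMap L Qb) hq.ne_zero hA = place A' (algebraMap L Qb) hq'.ne_zero hA' := h
  rw [h'] at h1
  exact prime_unique hq hq' h1 h2

end Fermat.Agent.CFT.D2
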