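import Mathlib
import Fermat.Agent.CFT.D2.Trans
import Fermat.Agent.CFT.SUnits

/-!
# The ramification map on cochains with `S`-constant coboundary
-/

set_option autoImplicit false

open NumberField IsDedekindDomain Pointwise
open Fermat.Agent.FrobExists
open Fermat.Agent.CFT.W Fermat.Agent.CFT.LC

namespace Fermat.Agent.CFT.D2

/-- An algebraic closure of `ℚ`. -/
local notation "Qb" => AlgebraicClosure ℚ

section places

variable {E : IntermediateField ℚ Qb} [FiniteDimensional ℚ E]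

/-- the rational prime below `v` -/
noncomputable def qv (v : HeightOneSpectrum (𝓞 E)) : Nat.Primes := (exists_prime_mem v).choose

theorem qv_spec (v : HeightOneSpectrum (𝓞 E)) : ((qv v : ℕ) : 𝓞 E) ∈ v.asIdeal :=
  (exists_prime_mem v).choose_spec

theorem qv_notMem {S : Finset Nat.Primes} {v : HeightOneSpectrum (𝓞 E)} (hv : v ∉ SL S E) :
    qv v ∉ S := (notMem_SL_iff (qv_spec v)).1 hv

/-- a chosen place of `ℚ̄` above `v` -/
noncomputable def Av (v : HeightOneSpectrum (𝓞 E)) : ValuationSubring Qb :=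
  (exists_valuationSubring_place E Qb (algebraMap E Qb) v (qv v).2.ne_zero (qv_spec v)).choose

theorem Av_liesOver (v : HeightOneSpectrum (𝓞 E)) : (Av v).LiesOverPrime (qv v : ℕ) :=
  (exists_valuationSubring_place E Qb (algebraMap E Qb) v (qv v).2.ne_zero
    (qv_spec v)).choose_spec.choose

theorem placeL_Av (v : HeightOneSpectrum (𝓞 E)) :
    placeL E (Av v) (qv v).2.ne_zero (Av_liesOver v) = v :=
  (exists_valuationSubring_place E Qb (algebraMap E Qb) v (qv v).2.ne_zero
    (qv_spec v)).choose_spec.choose_spec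

/-- Every place above a rational prime is conjugate to a chosen one. -/
theorem exists_eq_smul_Av {q : Nat.Primes} {A : ValuationSubring Qb}
    (hA : A.LiesOverPrime (q : ℕ)) :
    q = qv (placeL E A q.2.ne_zero hA) ∧
      ∃ u ∈ E.fixingSubgroup, A = u • Av (placeL E A q.2.ne_zero hA) := by
  have h1 : q = qv (placeL E A q.2.ne_zero hA) := by
    apply Subtype.ext
    exact prime_eq_of_placeL_eq E q.2 (qv (placeL E A q.2.ne_zero hA)).2 hA
      (Av_liesOver _) (placeL_Av _).symm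
  refine ⟨h1, ?_⟩
  have h2 := Av_liesOver (placeL E A q.2.ne_zero hA)
  have h3 := placeL_Av (placeL E A q.2.ne_zero hA)
  have h2' : (Av (placeL E A q.2.ne_zero hA)).LiesOverPrime (q : ℕ) := by
    rw [← h1] at h2
    exact h2
  exact exists_smul_eq_of_placeL_eq E q.2 h2' hA h3

end places

section D

variable {p : ℕ} [hp : Fact p.Prime] {S T : Finset Nat.Primes}
  {E : IntermediateField ℚ Qb} [FiniteDimensional ℚ E] {ζ : Qbˣ}

theorem isOpen_fixingSubgroup (hE : E ≤ QS S) : (unram S).IsOpen E.fixingSubgroup :=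
  isOpen_unram_iff.2 ⟨E, isUnramifiedOutside_iff.2 ⟨inferInstance, hE⟩, le_rfl⟩

theorem finer_lS_lQ (S : Finset Nat.Primes) (U : Subgroup GQ) : Finer (lS S U) (lQ U) := by
  apply Finer.restrict
  rintro _ ⟨F, hF, hF', rfl⟩
  exact ⟨_, ⟨F, hF.1, hF', rfl⟩, le_rfl⟩

theorem finer_lS_lS (hST : S ⊆ T) (U : Subgroup GQ) : Finer (lS S U) (lS T U) := by
  apply Finer.restrict
  rintro _ ⟨F, hF, hF', rfl⟩
  exact ⟨_, ⟨F, hF.mono hST, hF', rfl⟩, le_rfl⟩

theorem smooth_triv {G : Type} [Group G] (L : Lvl G) : Smooth L (triv p G) := by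
  intro v
  obtain ⟨N, hN⟩ := L.nonempty
  exact ⟨N, hN, fun _ _ => rfl⟩

/-- the standing hypotheses on `ζ` and `E` -/
structure Hyp (p : ℕ) [Fact p.Prime] (S : Finset Nat.Primes) (E : IntermediateField ℚ Qb)
    (ζ : Qbˣ) : Prop where
  prim : IsPrimitiveRoot ζ p
  mem : (ζ : Qb) ∈ E
  le : E ≤ QS S
  pS : ⟨p, Fact.out⟩ ∈ S

namespace Hyp

variable (h : Hyp p S E ζ)
include h

omit [FiniteDimensional ℚ E] in
theorem fix : ∀ u ∈ E.fixingSubgroup, u • ζ = ζ := fun u hu =>
  Units.ext ((IntermediateField.mem_fixingSubgroup_iff _ _).1 hu _ h.mem)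

omit [FiniteDimensional ℚ E] in
theorem mono (hST : S ⊆ T) : Hyp p T E ζ where
  prim := h.prim
  mem := h.mem
  le := h.le.trans (fun x hx q hq A hA σ hσ => hx q (fun hq' => hq (hST hq')) A hA σ hσ)
  pS := hST h.pS

theorem isOpen : (unram S).IsOpen E.fixingSubgroup := isOpen_fixingSubgroup h.le

theorem exists_gen (β : X1 (triv p E.fixingSubgroup) (lS S E.fixingSubgroup)
    (lQ E.fixingSubgroup)) : ∃ α, IsKum S E.fixingSubgroup ζ β.1 α :=
  exists_isKum h.isOpen h.prim h.fix β.2.1 β.2.2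

end Hyp

/-- the value of the ramification map at `v` on a Kummer generator -/
noncomputable def dval (p : ℕ) (v : HeightOneSpectrum (𝓞 E)) (α : Qbˣ) : ZMod p :=
  ((vv (Av v) (qv v) ((α ^ p : Qbˣ) : Qb) : ℤ) : ZMod p)

theorem dval_eq (h : Hyp p S E ζ) {β : E.fixingSubgroup → ZMod p} {α α' : Qbˣ}
    (hα : IsKum S E.fixingSubgroup ζ β α) (hα' : IsKum S E.fixingSubgroup ζ β α')
    {v : HeightOneSpectrum (𝓞 E)} (hv : v ∉ SL S E) : dval p v α = dval p v α' := by
  have := hα.vv_sub_dvd h.prim hα' (qv_notMem hv) (Av_liesOver v)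
  rw [← ZMod.intCast_zmod_eq_zero_iff_dvd] at this
  rw [dval, dval]
  push_cast at this
  exact (sub_eq_zero.1 this).symm

theorem dval_mul (h : Hyp p S E ζ) {β β' : E.fixingSubgroup → ZMod p} {α α' : Qbˣ}
    (hα : IsKum S E.fixingSubgroup ζ β α) (hα' : IsKum S E.fixingSubgroup ζ β' α')
    {v : HeightOneSpectrum (𝓞 E)} (hv : v ∉ SL S E) :
    dval p v (α * α') = dval p v α + dval p v α' := by
  have h1 := isInt_of_mem_QS (qv_notMem hv) (Av_liesOver v) (α ^ p).ne_zero (hα.pow_mem_QS h.prim)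
  have h2 := isInt_of_mem_QS (qv_notMem hv) (Av_liesOver v) (α' ^ p).ne_zero
    (hα'.pow_mem_QS h.prim)
  have h3 := h1.mul (qv v).2 (Av_liesOver v) h2
  rw [dval, dval, dval, mul_pow, Units.val_mul, h3.2]
  push_cast
  rfl

theorem dval_one (v : HeightOneSpectrum (𝓞 E)) : dval p v 1 = 0 := by
  rw [dval, one_pow, Units.val_one, vv_one (qv v).2 (Av_liesOver v), Int.cast_zero]

/-- value of the valuation at an arbitrary place above `v` -/
theorem cast_vv_eq_dval (h : Hyp p S E ζ) {β : E.fixingSubgroup → ZMod p} {α : Qbˣ}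
    (hα : IsKum S E.fixingSubgroup ζ β α) {q : Nat.Primes} (hq : q ∉ S)
    {A : ValuationSubring Qb} (hA : A.LiesOverPrime (q : ℕ)) :
    ((vv A q ((α ^ p : Qbˣ) : Qb) : ℤ) : ZMod p) =
      dval p (placeL E A q.2.ne_zero hA) α := by
  obtain ⟨h1, u, hu, h2⟩ := exists_eq_smul_Av (E := E) hA
  have hv : placeL E A q.2.ne_zero hA ∉ SL S E := place_notMem_SL _ hq hA
  set v := placeL E A q.2.ne_zero hA with hv'
  have h3 := hα.vv_smul_dvd h.prim h.fix (qv_notMem hv) (Av_liesOver v) hu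
  rw [← h2, ← ZMod.intCast_zmod_eq_zero_iff_dvd] at h3
  rw [dval]
  push_cast at h3
  rw [← sub_eq_zero, ← h3, ← h1, Units.val_pow_eq_pow_val]

/-- vanishing of `dval` outside `T` implies `T`-constancy -/
theorem isLC_of_dval (h : Hyp p S E ζ) {β : E.fixingSubgroup → ZMod p} {α : Qbˣ}
    (hα : IsKum S E.fixingSubgroup ζ β α) (hd : ∀ v ∉ SL S E, dval p v α = 0) :
    IsLC₁ (lS S E.fixingSubgroup) β := by
  refine hα.isLC_of_dvd h.prim h.pS fun q hq A hA => ?_
  rw [← ZMod.intCast_zmod_eq_zero_iff_dvd, cast_vv_eq_dval h hα hq hA]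
  exact hd _ (place_notMem_SL _ hq hA)

theorem dval_eq_zero_of_isLC (h : Hyp p S E ζ) {β : E.fixingSubgroup → ZMod p} {α : Qbˣ}
    (hα : IsKum S E.fixingSubgroup ζ β α) (hβ : IsLC₁ (lS S E.fixingSubgroup) β)
    {v : HeightOneSpectrum (𝓞 E)} (hv : v ∉ SL S E) : dval p v α = 0 := by
  rw [dval_eq h hα (IsKum.one_of_isLC h.isOpen hβ) hv, dval_one]

/-- the set of places above `T` but not above `S` -/
abbrev Jset (S T : Finset Nat.Primes) (E : IntermediateField ℚ Qb) [FiniteDimensional ℚ E] :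
    Type := {v : HeightOneSpectrum (𝓞 E) // v ∈ SL T E ∧ v ∉ SL S E}

instance : Finite (Jset S T E) := by
  have h1 := finite_SL T E
  have h2 : {v | v ∈ SL T E ∧ v ∉ SL S E}.Finite := h1.subset fun v hv => hv.1
  exact h2.to_subtype

/-- The ramification map. -/
noncomputable def ramMap (h : Hyp p S E ζ) (T : Finset Nat.Primes) :
    X1 (triv p E.fixingSubgroup) (lS S E.fixingSubgroup) (lQ E.fixingSubgroup) →ₗ[ZMod p]
      (Jset S T E → ZMod p) :=
  AddMonoidHom.toZModLinearMap p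
    { toFun := fun β v => dval p v.1 (h.exists_gen β).choose
      map_zero' := by
        funext v
        refine dval_eq_zero_of_isLC h (h.exists_gen 0).choose_spec ?_ v.2.2
        exact isLC₁_const 0
      map_add' := fun β β' => by
        funext v
        have h1 := (h.exists_gen β).choose_spec
        have h2 := (h.exists_gen β').choose_spec
        have h3 := (h.exists_gen (β + β')).choose_spec
        show dval p v.1 _ = dval p v.1 _ + dval p v.1 _
        rw [← dval_mul h h1 h2 v.2.2]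
        exact dval_eq h h3 (h1.mul h.prim h2) v.2.2 }

theorem ramMap_apply (h : Hyp p S E ζ)
    (β : X1 (triv p E.fixingSubgroup) (lS S E.fixingSubgroup) (lQ E.fixingSubgroup))
    {α : Qbˣ} (hα : IsKum S E.fixingSubgroup ζ β.1 α) (v : Jset S T E) :
    ramMap h T β v = dval p v.1 α :=
  dval_eq h (h.exists_gen β).choose_spec hα v.2.2

/-- inclusion of cochains -/
noncomputable def inclX1 (p : ℕ) [Fact p.Prime] (S T : Finset Nat.Primes) (U : Subgroup GQ) :
    X1 (triv p U) (lS S U) (lS T U) →ₗ[ZMod p] X1 (triv p U) (lS S U) (lQ U) :=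
  Submodule.inclusion fun _ hβ => ⟨(finer_lS_lQ T U).isLC₁ hβ.1, hβ.2⟩

theorem ramMap_eq_zero_iff (h : Hyp p S E ζ) (hST : S ⊆ T)
    (β : X1 (triv p E.fixingSubgroup) (lS S E.fixingSubgroup) (lS T E.fixingSubgroup)) :
    ramMap h T (inclX1 p S T _ β) = 0 ↔ IsLC₁ (lS S E.fixingSubgroup) β.1 := by
  obtain ⟨α, hα⟩ := h.exists_gen (inclX1 p S T _ β)
  constructor
  · intro h0
    refine isLC_of_dval h hα fun v hv => ?_
    by_cases hvT : v ∈ SL T E
    · rw [← ramMap_apply (T := T) h _ hα ⟨v, hvT, hv⟩, h0, Pi.zero_apply]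
    · exact dval_eq_zero_of_isLC (h.mono hST) (hα.mono_S hST) β.2.1 hvT
  · intro h0
    funext v
    rw [ramMap_apply h _ hα]
    exact dval_eq_zero_of_isLC h hα h0 v.2.2

/-- **Index inequality.** -/
theorem index_ineq (h : Hyp p S E ζ) (hST : S ⊆ T)
    [FiniteDimensional (ZMod p) (LC.H1 (triv p E.fixingSubgroup) (lS T E.fixingSubgroup))] :
    FiniteDimensional (ZMod p) (LC.H1 (triv p E.fixingSubgroup) (lS S E.fixingSubgroup)) ∧
    FiniteDimensional (ZMod p)
      (K2 (triv p E.fixingSubgroup) (finer_lS_lS hST E.fixingSubgroup)) ∧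
    Module.finrank (ZMod p) (LC.H1 (triv p E.fixingSubgroup) (lS T E.fixingSubgroup)) +
      Module.finrank (ZMod p) (K2 (triv p E.fixingSubgroup) (finer_lS_lS hST E.fixingSubgroup)) ≤
    Module.finrank (ZMod p) (LC.H1 (triv p E.fixingSubgroup) (lS S E.fixingSubgroup)) +
      Nat.card (Jset S T E) := by
  have : Fintype (Jset S T E) := Fintype.ofFinite _
  obtain ⟨h1, h2, h3⟩ := index_aux (triv p E.fixingSubgroup) (finer_lS_lS hST E.fixingSubgroup)
    (smooth_triv _) ((ramMap h T).comp (inclX1 p S T _)) (fun β => ramMap_eq_zero_iff h hST β)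
  refine ⟨h1, h2, ?_⟩
  rw [h3]
  have h4 := Submodule.finrank_le (LinearMap.range ((ramMap h T).comp (inclX1 p S T _)))
  rw [Module.finrank_fintype_fun_eq_card, ← Nat.card_eq_fintype_card] at h4
  omega

end D

end Fermat.Agent.CFT.D2
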