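import Mathlib
import Fermat.Agent.CFT.D2.RamMap

/-!
# Kummer classes and `T`-units
-/

set_option autoImplicit false

open NumberField IsDedekindDomain Pointwise
open Fermat.Agent.FrobExists
open Fermat.Agent.CFT.W Fermat.Agent.CFT.LC

namespace Fermat.Agent.CFT.D2

/-- An algebraic closure of `ℚ`. -/
local notation "Qb" => AlgebraicClosure ℚ

section kc

variable {p : ℕ} [hp : Fact p.Prime] {U : Subgroup GQ} {ζ : Qbˣ}

/-- `c` is the Kummer cocycle of `ξ^p` -/
def IsKC (U : Subgroup GQ) (ζ : Qbˣ) (c : U → ZMod p) (ξ : Qbˣ) : Prop :=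
  ∀ u : U, (u : GQ) • ξ = ez ζ (c u) * ξ

theorem exists_isKC (hζ : IsPrimitiveRoot ζ p) {ξ : Qbˣ}
    (hξ : ∀ u ∈ U, u • (ξ ^ p) = ξ ^ p) : ∃ c : U → ZMod p, IsKC U ζ c ξ := by
  have h : ∀ u : U, ∃ n : ZMod p, (u : GQ) • ξ = ez ζ n * ξ := by
    intro u
    have h1 : ((u : GQ) • ξ / ξ) ^ p = 1 := by
      rw [div_pow, ← smul_pow', hξ u u.2, div_self']
    obtain ⟨n, hn⟩ := exists_ez hζ h1
    exact ⟨n, by rw [← hn, div_mul_cancel]⟩
  choose c hc using h
  exact ⟨c, hc⟩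

namespace IsKC

variable {c c' : U → ZMod p} {ξ ξ' : Qbˣ}

theorem unique (hζ : IsPrimitiveRoot ζ p) (h : IsKC U ζ c ξ) (h' : IsKC U ζ c' ξ) : c = c' := by
  funext u
  apply ez_injective hζ
  have := (h u).symm.trans (h' u)
  exact mul_right_cancel this

theorem map_mul (hζ : IsPrimitiveRoot ζ p) (hUζ : ∀ u ∈ U, u • ζ = ζ) (h : IsKC U ζ c ξ)
    (u v : U) : c (u * v) = c u + c v := by
  apply ez_injective hζ
  have h1 := h (u * v)
  rw [Subgroup.coe_mul, mul_smul, h v, smul_mul', smul_ez (hUζ u u.2), h u, ← mul_assoc] at h1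
  rw [ez_add hζ.pow_eq_one, ← mul_right_cancel h1, mul_comm]

theorem map_one (hζ : IsPrimitiveRoot ζ p) (hUζ : ∀ u ∈ U, u • ζ = ζ) (h : IsKC U ζ c ξ) :
    c 1 = 0 := by
  have := h.map_mul hζ hUζ 1 1
  rw [mul_one] at this
  simpa using this

theorem mul (hζ : IsPrimitiveRoot ζ p) (h : IsKC U ζ c ξ) (h' : IsKC U ζ c' ξ') :
    IsKC U ζ (c + c') (ξ * ξ') := fun u => by
  rw [smul_mul', h u, h' u, Pi.add_apply, ez_add hζ.pow_eq_one, mul_mul_mul_comm]

theorem mul_fixed (h : IsKC U ζ c ξ) {e : Qbˣ} (he : ∀ u ∈ U, u • e = e) :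
    IsKC U ζ c (ξ * e) := fun u => by
  rw [smul_mul', h u, he u u.2, mul_assoc]

theorem isLC_krull (hζ : IsPrimitiveRoot ζ p) (hUζ : ∀ u ∈ U, u • ζ = ζ) (h : IsKC U ζ c ξ) :
    IsLC₁ (lQ U) c := by
  have h1 : IsFin (IntermediateField.adjoin ℚ {(ξ : Qb)}) :=
    IntermediateField.adjoin.finiteDimensional (Algebra.IsIntegral.isIntegral (R := ℚ) (ξ : Qb))
  obtain ⟨F, hle, hF, hF'⟩ := exists_normal_ge h1
  refine ⟨_, ⟨_, ⟨F, hF, hF', rfl⟩, rfl⟩, fun g s hs => ?_⟩
  have h2 : (s : GQ) • ξ = ξ := Units.ext ((IntermediateField.mem_fixingSubgroup_iff _ _).1 hs _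
    (hle (IntermediateField.mem_adjoin_simple_self ℚ _)))
  have h3 := h s
  rw [h2] at h3
  have h4 : ez ζ (c s) = 1 := by
    have h5 : (1 : Qbˣ) * ξ = ez ζ (c s) * ξ := by rw [one_mul]; exact h3
    exact (mul_right_cancel h5).symm
  rw [ez_eq_one_iff hζ] at h4
  rw [h.map_mul hζ hUζ, h4, add_zero]

theorem mem_Z1 (hζ : IsPrimitiveRoot ζ p) (hUζ : ∀ u ∈ U, u • ζ = ζ) (h : IsKC U ζ c ξ) :
    c ∈ Z1 (triv p U) (lQ U) := by
  rw [LC.mem_Z1]
  refine ⟨fun g s => ?_, h.isLC_krull hζ hUζ⟩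
  rw [h.map_mul hζ hUζ]
  show c g + c s = c s + c g
  rw [add_comm]

theorem isKum {S : Finset Nat.Primes} (hU : (unram S).IsOpen U) (hζ : IsPrimitiveRoot ζ p)
    (hUζ : ∀ u ∈ U, u • ζ = ζ) (h : IsKC U ζ c ξ) : IsKum S U ζ c ξ := by
  obtain ⟨F, hF, hF', hle⟩ := exists_field hU
  have h1 := h.map_one hζ hUζ
  refine ⟨F, ⟨hF, hF', hle, ?_, ?_⟩, fun s _ => ?_⟩
  · intro g s _
    rw [h.map_mul hζ hUζ, h1, sub_zero]
  · intro g s _
    rw [h.map_mul hζ hUζ, h1, sub_zero, add_comm]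
  · rw [h1, sub_zero]
    exact h s

end IsKC

/-- A cocycle is a Kummer cocycle. -/
theorem exists_isKC_of_mem_Z1 {c : U → ZMod p} (hζ : IsPrimitiveRoot ζ p)
    (hUζ : ∀ u ∈ U, u • ζ = ζ) (hc : c ∈ Z1 (triv p U) (lQ U)) :
    ∃ ξ : Qbˣ, IsKC U ζ c ξ := by
  rw [LC.mem_Z1] at hc
  have h90 : Fermat.Agent.CFT.Hasse.H90 (krull ℚ Qb) U Qbˣ := by
    refine Fermat.Agent.CFT.Hasse.h90_gal (krull ℚ Qb) ?_ U
    rintro _ ⟨E, hE, hE', rfl⟩
    exact ⟨E, hE, le_rfl⟩
  obtain ⟨ξ, hξ⟩ := h90 (fun v => ez ζ (c v)) (by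
      intro v w
      rw [smul_ez (hUζ v v.2), ← ez_add hζ.pow_eq_one]
      congr 1
      have := hc.1 v w
      rw [this]
      show c w + c v = c v + c w
      rw [add_comm]) (by
      obtain ⟨N, hN, h⟩ := hc.2
      exact ⟨N, hN, fun g s hs => by simp only [h g s hs]⟩)
  refine ⟨ξ, fun u => ?_⟩
  have h1 := hξ u
  rw [h1, div_mul_cancel]

theorem IsKC.pow_fixed {c : U → ZMod p} {ξ : Qbˣ} (hζ : IsPrimitiveRoot ζ p)
    (h : IsKC U ζ c ξ) : ∀ u ∈ U, u • (ξ ^ p) = ξ ^ p := by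
  intro u hu
  rw [smul_pow', h ⟨u, hu⟩, mul_pow, ez_pow hζ.pow_eq_one, one_mul]

end kc

section kap

variable {p : ℕ} [hp : Fact p.Prime] {S T : Finset Nat.Primes}
  {E : IntermediateField ℚ Qb} [FiniteDimensional ℚ E] {ζ : Qbˣ}

/-- the inclusion `Eˣ → ℚ̄ˣ` -/
noncomputable abbrev inc (E : IntermediateField ℚ Qb) : Eˣ →* Qbˣ :=
  Units.map (algebraMap E Qb : E →* Qb)

omit [FiniteDimensional ℚ E] in
theorem inc_fixed (x : Eˣ) : ∀ u ∈ E.fixingSubgroup, u • inc E x = inc E x := fun _ hu =>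
  Units.ext ((IntermediateField.mem_fixingSubgroup_iff _ _).1 hu _ (x : E).2)

omit [FiniteDimensional ℚ E] in
theorem exists_inc {y : Qbˣ} (hy : ∀ u ∈ E.fixingSubgroup, u • y = y) : ∃ x : Eˣ, inc E x = y := by
  have hmem : (y : Qb) ∈ E := by
    have h2 := InfiniteGalois.fixedField_fixingSubgroup E
    rw [← h2, IntermediateField.mem_fixedField_iff]
    exact fun u hu => congrArg Units.val (hy u hu)
  exact ⟨Units.mk0 ⟨_, hmem⟩ (fun h => y.ne_zero (congrArg Subtype.val h)), Units.ext rfl⟩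

omit [FiniteDimensional ℚ E] in
theorem inc_injective : Function.Injective (inc E) := by
  intro x y h
  exact Units.ext (Subtype.ext (congrArg Units.val h))

theorem exists_root (n : ℕ) (hn : 0 < n) (y : Qbˣ) : ∃ z : Qbˣ, z ^ n = y := by
  obtain ⟨z, hz⟩ := IsAlgClosed.exists_pow_nat_eq (y : Qb) hn
  have hz0 : z ≠ 0 := by
    rintro rfl
    rw [zero_pow hn.ne'] at hz
    exact y.ne_zero hz.symm
  exact ⟨Units.mk0 z hz0, Units.ext hz⟩

/-- `c` is the Kummer cocycle of `x ∈ Eˣ`. -/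
def IsKE (p : ℕ) [Fact p.Prime] (E : IntermediateField ℚ Qb) (ζ : Qbˣ)
    (c : E.fixingSubgroup → ZMod p) (x : Eˣ) : Prop :=
  ∃ ξ : Qbˣ, ξ ^ p = inc E x ∧ IsKC E.fixingSubgroup ζ c ξ

omit [FiniteDimensional ℚ E] in
theorem exists_isKE (hζ : IsPrimitiveRoot ζ p) (x : Eˣ) :
    ∃ c : E.fixingSubgroup → ZMod p, IsKE p E ζ c x := by
  obtain ⟨ξ, hξ⟩ := exists_root p hp.out.pos (inc E x)
  obtain ⟨c, hc⟩ := exists_isKC (U := E.fixingSubgroup) hζ (ξ := ξ) (by
    rw [hξ]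
    exact inc_fixed x)
  exact ⟨c, ξ, hξ, hc⟩

omit [FiniteDimensional ℚ E] in
theorem IsKE.unique' (hζ : IsPrimitiveRoot ζ p) (hfix : ∀ u ∈ E.fixingSubgroup, u • ζ = ζ)
    {c c' : E.fixingSubgroup → ZMod p} {x : Eˣ} (h : IsKE p E ζ c x) (h' : IsKE p E ζ c' x) :
    c = c' := by
  obtain ⟨ξ, h1, h2⟩ := h
  obtain ⟨ξ', h1', h2'⟩ := h'
  have h3 : (ξ / ξ') ^ p = 1 := by rw [div_pow, h1, h1', div_self']
  obtain ⟨n, hn⟩ := exists_ez hζ h3
  have h4 : ξ = ξ' * ez ζ n := by rw [← hn, mul_div_cancel]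
  rw [h4] at h2
  exact h2.unique hζ (h2'.mul_fixed fun u hu => smul_ez (hfix u hu) n)

variable (h : Hyp p S E ζ)

/-- The Kummer homomorphism. -/
noncomputable def kap (h : Hyp p S E ζ) : Eˣ →* Multiplicative (E.fixingSubgroup → ZMod p) where
  toFun x := Multiplicative.ofAdd (exists_isKE h.prim x).choose
  map_one' := by
    have h1 := (exists_isKE (E := E) h.prim 1).choose_spec
    have h2 : IsKE p E ζ (0 : E.fixingSubgroup → ZMod p) 1 :=
      ⟨1, by rw [one_pow, map_one], fun u => by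
        rw [smul_one, Pi.zero_apply, ez_zero, one_mul]⟩
    exact congrArg Multiplicative.ofAdd (h1.unique' h.prim h.fix h2)
  map_mul' x y := by
    have h1 := (exists_isKE (E := E) h.prim (x * y)).choose_spec
    obtain ⟨ξ, h2, h3⟩ := (exists_isKE (E := E) h.prim x).choose_spec
    obtain ⟨ξ', h2', h3'⟩ := (exists_isKE (E := E) h.prim y).choose_spec
    have h4 : IsKE p E ζ ((exists_isKE (E := E) h.prim x).choose +
      (exists_isKE (E := E) h.prim y).choose) (x * y) :=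
      ⟨ξ * ξ', by rw [mul_pow, h2, h2', map_mul], h3.mul h.prim h3'⟩
    exact congrArg Multiplicative.ofAdd (h1.unique' h.prim h.fix h4)

omit [FiniteDimensional ℚ E] in
theorem kap_spec (x : Eˣ) : IsKE p E ζ (Multiplicative.toAdd (kap h x)) x :=
  (exists_isKE h.prim x).choose_spec

omit [FiniteDimensional ℚ E] in
theorem kap_eq {x : Eˣ} {c : E.fixingSubgroup → ZMod p} (hc : IsKE p E ζ c x) :
    kap h x = Multiplicative.ofAdd c :=
  congrArg Multiplicative.ofAdd ((kap_spec h x).unique' h.prim h.fix hc)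

omit [FiniteDimensional ℚ E] in
theorem ker_kap : (kap h).ker = (powMonoidHom p : Eˣ →* Eˣ).range := by
  ext x
  rw [MonoidHom.mem_ker, MonoidHom.mem_range]
  constructor
  · intro hx
    obtain ⟨ξ, h2, h3⟩ := kap_spec h x
    rw [hx] at h3
    obtain ⟨y, hy⟩ := exists_inc (E := E) (y := ξ) fun u hu => by
      have := h3 ⟨u, hu⟩
      rw [toAdd_one, Pi.zero_apply, ez_zero, one_mul] at this
      exact this
    refine ⟨y, inc_injective ?_⟩
    rw [powMonoidHom_apply, map_pow, hy, h2]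
  · rintro ⟨y, rfl⟩
    rw [powMonoidHom_apply]
    exact kap_eq (c := 0) h ⟨inc E y, by rw [map_pow], fun u => by
      rw [inc_fixed y u u.2, Pi.zero_apply, ez_zero, one_mul]⟩

theorem finite_ord_ne_zero {L : Type*} [Field L] [NumberField L] (x : Lˣ) :
    {v : HeightOneSpectrum (𝓞 L) | ord v x ≠ 0}.Finite := by
  refine ((HeightOneSpectrum.Support.finite (𝓞 L) (x : L)).union
    (HeightOneSpectrum.Support.finite (𝓞 L) ((x⁻¹ : Lˣ) : L))).subset fun v hv => ?_
  rcases lt_or_gt_of_ne hv with h | h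
  · left
    have h1 := (not_iff_not.2 (ord_nonneg_iff v x)).1 (not_le.2 h)
    exact not_le.1 h1
  · right
    have h0 : ord v x⁻¹ < 0 := by rw [ord_inv]; omega
    have h1 := (not_iff_not.2 (ord_nonneg_iff v x⁻¹)).1 (not_le.2 h0)
    exact not_le.1 h1

theorem isLC_kap_iff {x : Eˣ} (hx : ∀ v ∉ SL S E, (p : ℤ) ∣ ord v x) :
    IsLC₁ (lS S E.fixingSubgroup) (Multiplicative.toAdd (kap h x)) := by
  obtain ⟨ξ, h2, h3⟩ := kap_spec h x
  have : NeZero p := ⟨hp.out.ne_zero⟩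
  refine (h3.isKum h.isOpen h.prim h.fix).isLC_of_mem_QS h.prim ?_
  refine root_mem_QS h.le (n := p) ?_ (a := x) hx (b := (ξ : Qb)) ?_
  · intro q hq hqp
    have h1 := (Nat.prime_dvd_prime_iff_eq q.2 hp.out).1 hqp
    exact hq (by
      have : q = ⟨p, hp.out⟩ := Subtype.ext h1
      rw [this]; exact h.pS)
  · rw [← Units.val_pow_eq_pow_val, h2]
    rfl

theorem dvd_ord_of_isLC {x : Eˣ}
    (hc : IsLC₁ (lS S E.fixingSubgroup) (Multiplicative.toAdd (kap h x)))
    {v : HeightOneSpectrum (𝓞 E)} (hv : v ∉ SL S E) : (p : ℤ) ∣ ord v x := by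
  obtain ⟨ξ, h2, h3⟩ := kap_spec h x
  refine dvd_ord_of_root_mem_QS hp.out (a := x) (b := (ξ : Qb)) ?_ ?_ hv
  · rw [← Units.val_pow_eq_pow_val, h2]
    rfl
  · obtain ⟨F₁, h4, h4', h4le⟩ := exists_field h.isOpen
    obtain ⟨_, ⟨_, ⟨F₂, h5, h5', rfl⟩, rfl⟩, h6⟩ := hc
    refine mem_QS_of_fixed (h4.sup h5) fun s hs => ?_
    have hs1 : s ∈ E.fixingSubgroup :=
      h4le (IntermediateField.fixingSubgroup_antitone le_sup_left hs)
    have hs2 : s ∈ F₂.fixingSubgroup := IntermediateField.fixingSubgroup_antitone le_sup_right hs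
    have h7 := h6 1 ⟨s, hs1⟩ hs2
    rw [one_mul, h3.map_one h.prim h.fix] at h7
    have h8 := h3 ⟨s, hs1⟩
    rw [h7, ez_zero, one_mul] at h8
    exact congrArg Units.val h8

/-- If the `S`-class group is trivial, `S`-constant cocycles are Kummer cocycles of `S`-units. -/
theorem map_kap_unit (hcl : SUnits.ClassTrivial (SL S E)) :
    (((SL S E).unit E).map (kap h) : Set (Multiplicative (E.fixingSubgroup → ZMod p))) =
      Multiplicative.toAdd ⁻¹' (Z1 (triv p E.fixingSubgroup) (lS S E.fixingSubgroup) :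
        Set (E.fixingSubgroup → ZMod p)) := by
  ext c
  rw [SetLike.mem_coe, Subgroup.mem_map, Set.mem_preimage, SetLike.mem_coe]
  constructor
  · rintro ⟨x, hx, rfl⟩
    obtain ⟨ξ, h2, h3⟩ := kap_spec h x
    refine ⟨(h3.mem_Z1 h.prim h.fix).1, isLC_kap_iff h fun v hv => ?_⟩
    have h4 := hx v hv
    have h5 : ord v x = 0 := (ord_eq_zero_iff v x).2 h4
    rw [h5]
    exact dvd_zero _
  · intro hc
    have hc' : Multiplicative.toAdd c ∈ Z1 (triv p E.fixingSubgroup) (lQ E.fixingSubgroup) :=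
      ⟨hc.1, (finer_lS_lQ S _).isLC₁ hc.2⟩
    obtain ⟨ξ, hξ⟩ := exists_isKC_of_mem_Z1 h.prim h.fix hc'
    obtain ⟨x, hx⟩ := exists_inc (E := E) (y := ξ ^ p) (hξ.pow_fixed h.prim)
    have hkx : kap h x = c := kap_eq (c := Multiplicative.toAdd c) h ⟨ξ, hx.symm, hξ⟩
    have hdvd : ∀ v ∉ SL S E, (p : ℤ) ∣ ord v x := fun v hv =>
      dvd_ord_of_isLC h (by rw [hkx]; exact hc.2) hv
    -- correct `x` by a `p`-th power
    obtain ⟨y, hy⟩ := hcl (Finsupp.onFinset (finite_ord_ne_zero x).toFinset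
      (fun v => -(ord v x / p)) (fun v hv => by
        rw [Set.Finite.mem_toFinset]
        intro h0
        exact hv (by rw [h0, Int.zero_ediv, neg_zero])))
    have hy' : ∀ v ∉ SL S E, ord v y = ord v x / p := by
      intro v hv
      rw [ord, hy v hv, Finsupp.onFinset_apply, toAdd_ofAdd, neg_neg]
    refine ⟨x * (y ^ p)⁻¹, ?_, ?_⟩
    · intro v hv
      rw [← ord_eq_zero_iff v, ord_mul, ord_inv, ord_pow, hy' v hv,
        Int.mul_ediv_cancel' (hdvd v hv), add_neg_cancel]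
    · have h4 : kap h (y ^ p) = 1 := by
        rw [← MonoidHom.mem_ker, ker_kap]
        exact ⟨y, rfl⟩
      rw [map_mul, map_inv, h4, inv_one, mul_one, hkx]

theorem smooth_triv' {G : Type} [Group G] (L : Lvl G) (x : LC.Z1 (triv p G) L) :
    H1.mk (triv p G) L x = 0 ↔ x = 0 := by
  rw [H1.mk_eq_zero_iff]
  constructor
  · rintro ⟨v, hv⟩
    apply Subtype.ext
    funext g
    rw [hv g]
    exact sub_self v
  · rintro rfl
    exact ⟨0, fun g => by simp⟩

/-- For the trivial representation, `H¹ = Z¹`. -/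
noncomputable def z1EquivH1 {G : Type} [Group G] (L : Lvl G) :
    LC.Z1 (triv p G) L ≃ₗ[ZMod p] LC.H1 (triv p G) L :=
  LinearEquiv.ofBijective (H1.mk (triv p G) L)
    ⟨by
      rw [injective_iff_map_eq_zero]
      exact fun x hx => (smooth_triv' L x).1 hx, H1.mk_surjective⟩

include h in
/-- The order of `H¹` for a set of primes with trivial class group. -/
theorem card_H1 (hcl : SUnits.ClassTrivial (SL S E)) :
    Nat.card (LC.H1 (triv p E.fixingSubgroup) (lS S E.fixingSubgroup)) =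
      p ^ (Nat.card (SL S E) + NumberField.Units.rank E + 1) := by
  have hfinS : Finite (SL S E) := (finite_SL S E).to_subtype
  have h1 : Nat.card (LC.Z1 (triv p E.fixingSubgroup) (lS S E.fixingSubgroup)) =
      Nat.card (((SL S E).unit E).map (kap h)) := by
    have h2 := map_kap_unit h hcl
    exact Nat.card_congr
      { toFun := fun c => ⟨Multiplicative.ofAdd c.1, by
          have h3 : Multiplicative.ofAdd c.1 ∈ Multiplicative.toAdd ⁻¹'
            (Z1 (triv p E.fixingSubgroup) (lS S E.fixingSubgroup) :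
              Set (E.fixingSubgroup → ZMod p)) := c.2
          rw [← h2] at h3
          exact h3⟩
        invFun := fun c => ⟨Multiplicative.toAdd c.1, by
          have h3 : c.1 ∈ (((SL S E).unit E).map (kap h) :
            Set (Multiplicative (E.fixingSubgroup → ZMod p))) := c.2
          rw [h2] at h3
          exact h3⟩
        left_inv := fun _ => rfl
        right_inv := fun _ => rfl }
  have h3 : Nat.card (rootsOfUnity p E) = p := by
    have : NeZero p := ⟨hp.out.ne_zero⟩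
    have hprim : IsPrimitiveRoot (⟨(ζ : Qb), h.mem⟩ : E) p := by
      have h4 := IsPrimitiveRoot.coe_units_iff.2 h.prim
      exact IsPrimitiveRoot.of_map_of_injective (f := algebraMap E Qb) h4
        (algebraMap E Qb).injective
    exact hprim.card_rootsOfUnity
  rw [← Nat.card_congr (z1EquivH1 (p := p) (lS S E.fixingSubgroup)).toEquiv, h1,
    ← Subgroup.relIndex_ker, ker_kap, SUnits.relIndex_pow_sunit _ p hp.out.ne_zero, h3,
    ← pow_succ]

include h in
theorem finite_H1 (hcl : SUnits.ClassTrivial (SL S E)) :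
    Finite (LC.H1 (triv p E.fixingSubgroup) (lS S E.fixingSubgroup)) := by
  refine Nat.finite_of_card_ne_zero ?_
  rw [card_H1 h hcl]
  exact pow_ne_zero _ hp.out.ne_zero

include h in
theorem finrank_H1 (hcl : SUnits.ClassTrivial (SL S E)) :
    Module.finrank (ZMod p) (LC.H1 (triv p E.fixingSubgroup) (lS S E.fixingSubgroup)) =
      Nat.card (SL S E) + NumberField.Units.rank E + 1 := by
  have := finite_H1 h hcl
  have h1 := Module.natCard_eq_pow_finrank (K := ZMod p)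
    (V := LC.H1 (triv p E.fixingSubgroup) (lS S E.fixingSubgroup))
  rw [card_H1 h hcl, Nat.card_zmod] at h1
  exact (Nat.pow_right_injective hp.out.two_le h1).symm

end kap

end Fermat.Agent.CFT.D2
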