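import Mathlib
import Fermat.Agent.CFT.D2.KumUnits

/-!
# The kernel of `H²(S) → H²(all levels)` and the index inequality
-/

set_option autoImplicit false

open NumberField IsDedekindDomain Pointwise
open Fermat.Agent.FrobExists
open Fermat.Agent.CFT.W Fermat.Agent.CFT.LC

namespace Fermat.Agent.CFT.D2

/-- An algebraic closure of `ℚ`. -/
local notation "Qb" => AlgebraicClosure ℚ

theorem placeL_smul (L : IntermediateField ℚ Qb) [FiniteDimensional ℚ L] {q : ℕ} (hq : q ≠ 0)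
    {A : ValuationSubring Qb} (hA : A.LiesOverPrime q) {u : GQ} (hu : u ∈ L.fixingSubgroup)
    (hA' : (u • A).LiesOverPrime q) : placeL L (u • A) hq hA' = placeL L A hq hA := by
  rw [placeL, placeL, place_eq_iff]
  intro x
  have h1 := Fermat.Agent.TWP.Place.apply_mem_nonunits_smul A u (x := ((x : L) : Qb))
  have h2 : u ((x : L) : Qb) = ((x : L) : Qb) :=
    (IntermediateField.mem_fixingSubgroup_iff _ _).1 hu _ (x : L).2
  rw [h2] at h1
  exact h1

section

variable {p : ℕ} [hp : Fact p.Prime] {S T : Finset Nat.Primes}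
  {E : IntermediateField ℚ Qb} [FiniteDimensional ℚ E] {ζ : Qbˣ}

theorem finite_vv_ne_zero (h : Hyp p S E ζ) {β : E.fixingSubgroup → ZMod p} {α : Qbˣ}
    (hα : IsKum S E.fixingSubgroup ζ β α) :
    {v : HeightOneSpectrum (𝓞 E) | v ∉ SL S E ∧
      vv (Av v) (qv v) ((α ^ p : Qbˣ) : Qb) ≠ 0}.Finite := by
  obtain ⟨F, hF, h1⟩ := hα
  have hfd : FiniteDimensional ℚ F := hF.unr.1
  have hFQ : F ≤ QS S := (isUnramifiedOutside_iff.1 hF.unr).2
  obtain ⟨a, ha⟩ := exists_inc (E := F) (y := α ^ p) fun u hu =>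
    Units.ext (IsKum.pow_fixed h.prim hF h1 u hu)
  have ha' : ((a : F) : Qb) = ((α ^ p : Qbˣ) : Qb) := congrArg Units.val ha
  refine Set.Finite.of_injOn (t := {w : HeightOneSpectrum (𝓞 F) | ord w a ≠ 0})
    (f := fun v => placeL F (Av v) (qv v).2.ne_zero (Av_liesOver v)) ?_ ?_
    (finite_ord_ne_zero a)
  · rintro v ⟨hv, h2⟩
    show ord (placeL F (Av v) (qv v).2.ne_zero (Av_liesOver v)) a ≠ 0
    rw [← vv_eq_ord (qv_notMem hv) (Av_liesOver v) hFQ a, ha']
    exact h2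
  · rintro v ⟨hv, -⟩ v' ⟨hv', -⟩ hvv
    have h3 := prime_eq_of_placeL_eq F (qv v).2 (qv v').2 (Av_liesOver v) (Av_liesOver v') hvv
    have h4 : (Av v').LiesOverPrime (qv v : ℕ) := by
      rw [h3]; exact Av_liesOver v'
    obtain ⟨u, hu, h5⟩ := exists_smul_eq_of_placeL_eq F (qv v).2 (Av_liesOver v) h4 hvv
    have h6 : (u • Av v).LiesOverPrime (qv v : ℕ) := by rw [← h5]; exact h4
    have h7 := placeL_smul E (qv v).2.ne_zero (Av_liesOver v) (hF.le hu) h6
    rw [placeL_Av] at h7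
    rw [← h7, ← placeL_Av v']
    congr 1
    exact h5.symm

theorem dval_kummer (h : Hyp p S E ζ) {x : Eˣ} {ξ : Qbˣ} (hξ : ξ ^ p = inc E x)
    {v : HeightOneSpectrum (𝓞 E)} (hv : v ∉ SL S E) :
    dval p v ξ = ((ord v x : ℤ) : ZMod p) := by
  have h1 := vv_eq_ord (qv_notMem hv) (Av_liesOver v) h.le x
  rw [placeL_Av] at h1
  rw [dval, hξ, ← h1]
  rfl

/-- Every cochain with `S`-constant coboundary is `T`-constant up to a cocycle. -/
theorem exists_sub_isLC (h : Hyp p S E ζ) (hST : S ⊆ T)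
    (hcl : SUnits.ClassTrivial (SL T E))
    (β : X1 (triv p E.fixingSubgroup) (lS S E.fixingSubgroup) (lQ E.fixingSubgroup)) :
    ∃ c ∈ Z1 (triv p E.fixingSubgroup) (lQ E.fixingSubgroup),
      IsLC₁ (lS T E.fixingSubgroup) (β.1 - c) := by
  classical
  obtain ⟨α, hα⟩ := h.exists_gen β
  have hSLmono : ∀ v : HeightOneSpectrum (𝓞 E), v ∉ SL T E → v ∉ SL S E := by
    rintro v hv ⟨q, hq, hqv⟩
    exact hv ⟨q, hST hq, hqv⟩
  obtain ⟨x, hx⟩ := hcl (Finsupp.onFinset (finite_vv_ne_zero h hα).toFinset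
      (fun v => if v ∉ SL T E then -(vv (Av v) (qv v) ((α ^ p : Qbˣ) : Qb)) else 0)
      (fun v hv => by
        rw [Set.Finite.mem_toFinset]
        by_cases hv' : v ∉ SL T E
        · rw [if_pos hv'] at hv
          exact ⟨hSLmono v hv', fun h0 => hv (by rw [h0, neg_zero])⟩
        · rw [if_neg hv'] at hv
          exact absurd rfl hv))
  have hx' : ∀ v ∉ SL T E, ord v x = vv (Av v) (qv v) ((α ^ p : Qbˣ) : Qb) := by
    intro v hv
    rw [ord, hx v hv, Finsupp.onFinset_apply, toAdd_ofAdd, if_pos hv, neg_neg]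
  obtain ⟨ξ, hξ, hξ'⟩ := kap_spec h x
  set c := Multiplicative.toAdd (kap h x) with hc
  refine ⟨c, hξ'.mem_Z1 h.prim h.fix, ?_⟩
  have hk : IsKum S E.fixingSubgroup ζ c ξ := hξ'.isKum h.isOpen h.prim h.fix
  have hk2 := hα.div h.prim hk
  refine isLC_of_dval (h.mono hST) (hk2.mono_S hST) fun v hv => ?_
  have h1 := dval_mul h hk2 hk (hSLmono v hv)
  rw [div_mul_cancel, dval_kummer h hξ (hSLmono v hv), hx' v hv] at h1
  have h2 : dval p v α = ((vv (Av v) (qv v) ((α ^ p : Qbˣ) : Qb) : ℤ) : ZMod p) := rfl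
  rw [h2] at h1
  exact (right_eq_add.1 h1)

/-- The kernels of `H²(S) → H²(all)` and `H²(S) → H²(T)` agree. -/
theorem K2_eq (h : Hyp p S E ζ) (hST : S ⊆ T) (hcl : SUnits.ClassTrivial (SL T E)) :
    K2 (triv p E.fixingSubgroup) (finer_lS_lQ S E.fixingSubgroup) =
      K2 (triv p E.fixingSubgroup) (finer_lS_lS hST E.fixingSubgroup) := by
  apply le_antisymm
  · intro z hz
    obtain ⟨β, hβ⟩ := toK2_surjective (triv p E.fixingSubgroup)
      (finer_lS_lQ S E.fixingSubgroup) ⟨z, hz⟩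
    have hβ' : (toK2 (triv p E.fixingSubgroup) (finer_lS_lQ S E.fixingSubgroup) β :
      LC.H2 (triv p E.fixingSubgroup) (lS S E.fixingSubgroup)) = z := congrArg Subtype.val hβ
    rw [toK2_coe] at hβ'
    obtain ⟨c, hc, hc2⟩ := exists_sub_isLC h hST hcl β
    rw [K2, LinearMap.mem_ker, ← hβ', Mor.H2_mk, H2.mk_eq_zero_iff]
    refine ⟨β.1 - c, hc2, ?_⟩
    rw [map_sub, LinearMap.mem_ker.1 hc.1, sub_zero]
    rfl
  · intro z hz
    obtain ⟨z, rfl⟩ := H2.mk_surjective z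
    rw [K2, LinearMap.mem_ker, Mor.H2_mk, H2.mk_eq_zero_iff] at hz ⊢
    obtain ⟨x, hx, hx2⟩ := hz
    exact ⟨x, (finer_lS_lQ T _).isLC₁ hx, hx2⟩

variable (E S) in
/-- There is a finite set of primes containing `S` with trivial class group. -/
theorem exists_T : ∃ T : Finset Nat.Primes, S ⊆ T ∧ SUnits.ClassTrivial (SL T E) := by
  classical
  obtain ⟨X, hX, hSX, hcl⟩ := SUnits.exists_classTrivial E (SL S E) (finite_SL S E)
  refine ⟨S ∪ hX.toFinset.image qv, Finset.subset_union_left, hcl.mono fun v hv => ?_⟩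
  exact ⟨qv v, Finset.mem_union_right _ (Finset.mem_image_of_mem _ (hX.mem_toFinset.2 hv)),
    qv_spec v⟩

theorem card_SL_eq (hST : S ⊆ T) :
    Nat.card (SL T E) = Nat.card (SL S E) + Nat.card (Jset S T E) := by
  have h1 : (SL S E : Set (HeightOneSpectrum (𝓞 E))) ⊆ SL T E := by
    rintro v ⟨q, hq, hqv⟩
    exact ⟨q, hST hq, hqv⟩
  have h2 := Set.ncard_sdiff_add_ncard_of_subset h1 (finite_SL T E)
  have h3 : Nat.card (Jset S T E) = (SL T E \ SL S E).ncard := rfl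
  rw [h3, Nat.card_coe_set_eq, Nat.card_coe_set_eq, ← h2, add_comm]

/-- The index inequality in terms of `S` only. -/
theorem finrank_H1_ge (h : Hyp p S E ζ) :
    FiniteDimensional (ZMod p) (LC.H1 (triv p E.fixingSubgroup) (lS S E.fixingSubgroup)) ∧
    FiniteDimensional (ZMod p)
      (K2 (triv p E.fixingSubgroup) (finer_lS_lQ S E.fixingSubgroup)) ∧
    Module.finrank (ZMod p) (K2 (triv p E.fixingSubgroup) (finer_lS_lQ S E.fixingSubgroup)) +
      Nat.card (SL S E) + NumberField.Units.rank E + 1 ≤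
    Module.finrank (ZMod p) (LC.H1 (triv p E.fixingSubgroup) (lS S E.fixingSubgroup)) := by
  obtain ⟨T, hST, hcl⟩ := exists_T S E
  have h1 := finite_H1 (h.mono hST) hcl
  have h1' : FiniteDimensional (ZMod p)
    (LC.H1 (triv p E.fixingSubgroup) (lS T E.fixingSubgroup)) := Module.Finite.of_finite
  obtain ⟨h2, h3, h4⟩ := index_ineq h hST
  rw [K2_eq h hST hcl]
  refine ⟨h2, h3, ?_⟩
  rw [finrank_H1 (h.mono hST) hcl, card_SL_eq hST] at h4
  omega

end

end Fermat.Agent.CFT.D2
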