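import Mathlib
import Fermat.Agent.CFT.D2.Count

/-!
# Open subgroups and fixed fields; the rank of the units
-/

set_option autoImplicit false

open NumberField IsDedekindDomain Pointwise
open Fermat.Agent.FrobExists
open Fermat.Agent.CFT.W Fermat.Agent.CFT.LC

namespace Fermat.Agent.CFT.D2

/-- An algebraic closure of `ℚ`. -/
local notation "Qb" => AlgebraicClosure ℚ

/-- An open subgroup is the Galois group of its fixed field. -/
theorem exists_field_eq {U : Subgroup GQ} (hU : (krull ℚ Qb).IsOpen U) :
    ∃ E : IntermediateField ℚ Qb, FiniteDimensional ℚ E ∧ E.fixingSubgroup = U := by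
  obtain ⟨F, hF, hle⟩ := isOpen_krull_iff.1 hU
  have hfd : FiniteDimensional ℚ F := hF
  have hopen : IsOpen (U : Set GQ) := by
    exact Subgroup.isOpen_mono hle F.fixingSubgroup_isOpen
  have hclosed : IsClosed (U : Set GQ) := OpenSubgroup.isClosed ⟨U, hopen⟩
  have h1 := InfiniteGalois.fixingSubgroup_fixedField (k := ℚ) (K := Qb) ⟨U, hclosed⟩
  refine ⟨IntermediateField.fixedField U, ?_, h1⟩
  have h2 : IntermediateField.fixedField U ≤ F := by
    have h3 := InfiniteGalois.fixedField_fixingSubgroup F
    rw [← h3]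
    exact IntermediateField.fixedField_antitone hle
  exact FiniteDimensional.of_injective (IntermediateField.inclusion h2).toLinearMap
      (IntermediateField.inclusion_injective h2)

theorem le_QS_of_isOpen {S : Finset Nat.Primes} {E : IntermediateField ℚ Qb}
    (hE : (unram S).IsOpen E.fixingSubgroup) : E ≤ QS S := by
  obtain ⟨F, hF, hle⟩ := isOpen_unram_iff.1 hE
  rw [le_QS_iff]
  intro q hq A hA
  exact (hF.2 q hq A hA).trans hle

section rank

variable {p : ℕ} [hp : Fact p.Prime] {E : IntermediateField ℚ Qb} [FiniteDimensional ℚ E]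

theorem two_mul_rank (hp2 : p ≠ 2) {ζ : Qbˣ} (hζ : IsPrimitiveRoot ζ p) (hmem : (ζ : Qb) ∈ E) :
    2 * (NumberField.Units.rank E + 1) = Module.finrank ℚ E := by
  have hprim : IsPrimitiveRoot (⟨(ζ : Qb), hmem⟩ : E) p := by
    have h4 := IsPrimitiveRoot.coe_units_iff.2 hζ
    exact IsPrimitiveRoot.of_map_of_injective (f := algebraMap E Qb) h4
      (algebraMap E Qb).injective
  have h2 : 2 < p := lt_of_le_of_ne hp.out.two_le (Ne.symm hp2)
  have h0 : InfinitePlace.nrRealPlaces E = 0 :=
    InfinitePlace.IsPrimitiveRoot.nrRealPlaces_eq_zero_of_two_lt h2 hprim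
  have h3 := InfinitePlace.card_add_two_mul_card_eq_rank E
  have h4 : 0 < Fintype.card (InfinitePlace E) := Fintype.card_pos
  have h5 := InfinitePlace.card_eq_nrRealPlaces_add_nrComplexPlaces (K := E)
  rw [NumberField.Units.rank]
  rw [h0] at h3 h5
  omega

end rank

end Fermat.Agent.CFT.D2
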