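import Fermat.Agent.CFT.PT.Inputs
import Fermat.Agent.CFT.LC.Tools

/-!
# The bound for the image of localisation on `H²`

From local duality and reciprocity:
`dim H²(G, V) + dim H⁰(G, V') ≤ dim K + ∑ dim H⁰(Γ_v, V')` if `K ⊆ H²(G, V)` contains the kernel
of localisation.  Also: the twisted dual of `Fun(X, V)`.
-/

set_option autoImplicit false
set_option linter.unusedSectionVars false

namespace Fermat.Agent.CFT.D2

open Fermat.Agent.CFT.LC Fermat.Agent.CFT.PT Module

section LinAlg

variable {k : Type*} [Field k]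

/-- A bilinear map which is nondegenerate on the right has maximal rank. -/
theorem finrank_range_of_right {W Y : Type*} [AddCommGroup W] [Module k W] [AddCommGroup Y]
    [Module k Y] [FiniteDimensional k W] [FiniteDimensional k Y]
    (B : W →ₗ[k] Y →ₗ[k] k) (h : ∀ y, (∀ w, B w y = 0) → y = 0) :
    finrank k (LinearMap.range B) = finrank k Y := by
  have h1 : Function.Injective B.flip := by
    rw [injective_iff_map_eq_zero]
    intro y hy
    exact h y fun w => congrArg (fun f : Dual k W => f w) hy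
  have h2 : Function.Surjective B := by
    have h3 : Function.Surjective (B.flip.dualMap) := LinearMap.dualMap_surjective_of_injective h1
    intro f
    obtain ⟨g, hg⟩ := h3 f
    obtain ⟨w, hw⟩ := (Module.evalEquiv k W).surjective g
    refine ⟨w, ?_⟩
    rw [← hg, ← hw]
    rfl
  rw [LinearMap.range_eq_top.mpr h2, finrank_top, Subspace.dual_finrank_eq]

variable {ι : Type*} [Fintype ι] {A Y : Type*} [AddCommGroup A] [Module k A] [AddCommGroup Y]
  [Module k Y] {W Z : ι → Type*} [∀ v, AddCommGroup (W v)] [∀ v, Module k (W v)]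
  [∀ v, AddCommGroup (Z v)] [∀ v, Module k (Z v)]

/-- The linear algebra of the duality bound. -/
theorem abstract_bound [Nonempty ι] (loc : A →ₗ[k] ∀ v, W v) (B : ∀ v, W v →ₗ[k] Z v →ₗ[k] k)
    (hB : ∀ v, Function.Bijective (B v).flip) (hW : ∀ v, FiniteDimensional k (W v))
    [FiniteDimensional k Y] (res : ∀ v, Y →ₗ[k] Z v) (hres : ∀ v, Function.Injective (res v))
    (h0 : ∀ a y, ∑ v, B v (loc a v) (res v y) = 0) (K : Submodule k A) [FiniteDimensional k K]
    (hK : ∀ a, (∀ v, loc a v = 0) → a ∈ K) :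
    FiniteDimensional k A ∧ finrank k A + finrank k Y ≤ finrank k K + ∑ v, finrank k (Z v) := by
  classical
  let P : (∀ v, W v) →ₗ[k] Y →ₗ[k] k :=
    ∑ v, ((LinearMap.lcomp k k (res v)) ∘ₗ (B v)) ∘ₗ LinearMap.proj v
  have hP : ∀ z y, P z y = ∑ v, B v (z v) (res v y) := by
    intro z y
    simp only [P, LinearMap.sum_apply]
    rfl
  have h1 : finrank k (LinearMap.range P) = finrank k Y := by
    refine finrank_range_of_right _ fun y hy => ?_
    obtain ⟨v⟩ := ‹Nonempty ι›
    apply hres v
    apply (hB v).1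
    rw [map_zero, map_zero]
    refine LinearMap.ext fun z => ?_
    rw [LinearMap.flip_apply, LinearMap.zero_apply]
    have h3 := hy (Pi.single v z)
    rw [hP, Finset.sum_eq_single v] at h3
    · rwa [Pi.single_eq_same] at h3
    · intro w _ hw
      rw [Pi.single_eq_of_ne hw, map_zero, LinearMap.zero_apply]
    · exact fun h => absurd (Finset.mem_univ v) h
  have h2 : LinearMap.range loc ≤ LinearMap.ker P := by
    rintro _ ⟨z, rfl⟩
    rw [LinearMap.mem_ker]
    refine LinearMap.ext fun y => ?_
    rw [hP, h0]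
    rfl
  have h3 := Submodule.finrank_mono h2
  have h4 := P.finrank_range_add_finrank_ker
  have h5 : finrank k (∀ v, W v) = ∑ v, finrank k (Z v) := by
    rw [Module.finrank_pi_fintype]
    refine Finset.sum_congr rfl fun v _ => ?_
    rw [(LinearEquiv.ofBijective _ (hB v)).finrank_eq, Subspace.dual_finrank_eq]
  have h6 : LinearMap.ker loc ≤ K := by
    intro z hz
    refine hK z fun v => ?_
    exact congrFun (LinearMap.mem_ker.mp hz) v
  have h7 : FiniteDimensional k (LinearMap.ker loc) := Submodule.finiteDimensional_of_le h6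
  have h8 : FiniteDimensional k (A ⧸ LinearMap.ker loc) :=
    Module.Finite.equiv loc.quotKerEquivRange.symm
  have h9 : FiniteDimensional k A :=
    Module.Finite.of_submodule_quotient (LinearMap.ker loc)
  refine ⟨h9, ?_⟩
  have h10 := loc.finrank_range_add_finrank_ker
  have h11 := Submodule.finrank_mono h6
  omega

end LinAlg

section Bound

variable {k : Type} [Field k] {G : Type} [Group G] {L : Lvl G} {χ : G →* kˣ}
  {ι : Type} [Fintype ι] {Γ : ι → Type} [∀ v, Group (Γ v)] {LΓ : ∀ v, Lvl (Γ v)}
  {r : ∀ v, Γ v →* G} {hr : ∀ v, (LΓ v).Cont L (r v)} {δ : ι → ℕ}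

/-- The bound for `H²`. -/
theorem finrank_H2_le [Nonempty ι] (D : ∀ v, LocalDuality (LΓ v) (χ.comp (r v)) (δ v))
    (hrec : HRec L χ LΓ r hr fun v => (D v).inv)
    {V : Type} [AddCommGroup V] [Module k V] [FiniteDimensional k V] (ρ : Representation k G V)
    (hρ : Smooth L ρ) (K : Submodule k (LC.H2 ρ L)) [FiniteDimensional k K]
    (hK : ∀ z, (∀ v, (Mor.res ρ (r v) (hr v)).H2 z = 0) → z ∈ K) :
    FiniteDimensional k (LC.H2 ρ L) ∧
    finrank k (LC.H2 ρ L) + finrank k (LC.H0 (dtw ρ χ)) ≤
      finrank k K + ∑ v, finrank k (LC.H0 (dtw (ρ.comp (r v)) (χ.comp (r v)))) := by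
  refine abstract_bound (A := LC.H2 ρ L) (Y := LC.H0 (dtw ρ χ))
    (W := fun v => LC.H2 (ρ.comp (r v)) (LΓ v))
    (Z := fun v => LC.H0 (dtw (ρ.comp (r v)) (χ.comp (r v))))
    (LinearMap.pi fun v => (Mor.res ρ (r v) (hr v)).H2)
    (fun v => pair20 (χ.comp (r v)) (D v).inv (ρ.comp (r v)))
    (fun v => (D v).bij (ρ.comp (r v)) (hρ.comp (hr v)))
    (fun v => (D v).fin2 (ρ.comp (r v)) (hρ.comp (hr v)))
    (fun v => (resDtw ρ χ (r v) (hr v)).H0) (fun v => ?_) (fun z y => ?_) K ?_
  · intro x y h
    have h1 : ((resDtw ρ χ (r v) (hr v)).H0 x : Dual k V) = (resDtw ρ χ (r v) (hr v)).H0 y :=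
      congrArg Subtype.val h
    exact Subtype.ext h1
  · rw [← hrec (cup20 (evp_isPairing ρ χ) L z y)]
    refine Finset.sum_congr rfl fun v _ => ?_
    rw [← cup20_res]
    rfl
  · intro z hz
    exact hK z hz

end Bound

section DualFun

variable {k : Type} [Field k] {G : Type} [Group G] {X : Type} [Finite X]
  {V : Type} [AddCommGroup V] [Module k V]

/-- functionals on functions -/
noncomputable def dualFun (k : Type) [Field k] (X : Type) [Finite X] (V : Type) [AddCommGroup V]
    [Module k V] : Dual k (X → V) ≃ₗ[k] (X → Dual k V) :=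
  letI := Fintype.ofFinite X
  letI := Classical.decEq X
  (LinearMap.lsum k (fun _ : X => V) k).symm

theorem dualFun_apply [DecidableEq X] (φ : Dual k (X → V)) (x : X) (v : V) :
    dualFun k X V φ x v = φ (Pi.single x v) := by
  rw [dualFun]
  have := Subsingleton.elim (Classical.decEq X) (inferInstance : DecidableEq X)
  subst this
  rfl

theorem dualFun_dtw (π : G →* Equiv.Perm X) (ρ : Representation k G V) (χ : G →* kˣ) (g : G)
    (φ : Dual k (X → V)) :
    dualFun k X V (dtw (funRep π ρ) χ g φ) = funRep π (dtw ρ χ) g (dualFun k X V φ) := by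
  classical
  funext x
  refine LinearMap.ext fun v => ?_
  rw [dualFun_apply, dtw_apply_apply, funRep_apply, dtw_apply_apply, dualFun_apply]
  congr 2
  funext y
  rw [funRep_apply, map_inv π g, inv_inv]
  by_cases h : y = (π g)⁻¹ x
  · subst h
    have h2 : (π g) ((π g)⁻¹ x) = x := (π g).apply_symm_apply x
    rw [h2, Pi.single_eq_same, Pi.single_eq_same]
  · rw [Pi.single_eq_of_ne h, Pi.single_eq_of_ne, map_zero]
    intro h'
    have h2 : (π g)⁻¹ ((π g) y) = y := (π g).symm_apply_apply y
    exact h (by rw [← h', h2])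

/-- the twisted dual of a module of functions -/
noncomputable def dualFunIso (π : G →* Equiv.Perm X) (ρ : Representation k G V) (χ : G →* kˣ)
    (L : Lvl G) : MorIso (dtw (funRep π ρ) χ) L (funRep π (dtw ρ χ)) L :=
  MorIso.coeff L (dualFun k X V) (dualFun_dtw π ρ χ)

end DualFun

end Fermat.Agent.CFT.D2
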