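import Fermat.Agent.CFT.Hasse.Concrete
import Fermat.Agent.CFT.Unram.Classes
import Fermat.Agent.CFT.D2.RamMap
import Fermat.Agent.CFT.LC.Tools

/-!
# Classes of `H²` unramified outside `S` which vanish locally at `S` die in `H²` of `G_ℚ`

* `HasseQ p` : the Hasse principle for `H²(U, μ_p)`, `U ≤ G_ℚ` open (piece D1);
* `res_conj_eq_zero` : local triviality at `g⁻¹ Γ_q g`;
* `cobOn_of_notMem` : classes unramified outside `S` are locally trivial outside `S`;
* `evalMor_H2_eq_zero` : the conclusion after evaluation at a point and an invariant functional.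
-/

set_option autoImplicit false

open ExtCitation Pointwise
open Fermat.Agent.CFT.W Fermat.Agent.CFT.LC Fermat.Agent.CFT.Hasse Fermat.Agent.CFT.Local
open Fermat.Agent.CFT.Unram

namespace Fermat.Agent.CFT.D2

/-- An algebraic closure of `ℚ`. -/
local notation "Qb" => AlgebraicClosure ℚ

section Abstract

variable {k : Type*} [CommRing k] {G H : Type*} [Group G] [Group H] {V : Type*} [AddCommGroup V]
  [Module k V] (ρ : Representation k G V) {L : Lvl G} {LH : Lvl H}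

/-- If the restriction of a class along `f` is zero, so is the restriction along the conjugate
homomorphism. -/
theorem res_conj_eq_zero (f fg : H →* G) (g : G) (hfg : ∀ h, fg h = g⁻¹ * f h * g)
    (hf : LH.Cont L f) (hf' : LH.Cont L fg) (z : LC.H2 ρ L)
    (hz : (Mor.res ρ f hf).H2 z = 0) : (Mor.res ρ fg hf').H2 z = 0 := by
  let n : Mor (ρ.comp f) LH (ρ.comp fg) LH :=
    { f := MonoidHom.id H
      φ := ρ g⁻¹
      cont := LH.cont_id
      comm := fun h v => by
        show ρ g⁻¹ (ρ (f h) v) = ρ (fg h) (ρ g⁻¹ v)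
        rw [← Module.End.mul_apply, ← map_mul, ← Module.End.mul_apply, ← map_mul, hfg]
        congr 2
        group }
  have h1 : n.comp ((Mor.res ρ f hf).comp (Mor.conj ρ L g)) = Mor.res ρ fg hf' := by
    ext1
    · ext h
      show g⁻¹ * f h * g⁻¹⁻¹ = fg h
      rw [hfg, inv_inv]
    · refine LinearMap.ext fun v => ?_
      show ρ g⁻¹ (ρ g v) = v
      rw [← Module.End.mul_apply, ← map_mul, inv_mul_cancel, map_one]
      rfl
  rw [← h1, Mor.H2_comp, Mor.H2_comp, Mor.conj_H2, hz, map_zero]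

end Abstract

section Local

variable {p : ℕ} [hp : Fact p.Prime] (q : ℕ) [hq : Fact q.Prime]

/-- The 2-cochain `z` of `U ≤ G_ℚ` is a coboundary on `(g⁻¹ Γ_q g)⁻¹ U ≤ Γ_q`. -/
def LocTrivAt (p : ℕ) [Fact p.Prime] (q : ℕ) [Fact q.Prime] (g : GQ) (U : Subgroup GQ)
    (z : GQ × GQ → ZMod p) : Prop :=
  CobOn (lvlOver (localGaloisToGlobal q)) ((cycloChar p).comp (locConj q g)) (U.comap (locConj q g))
    (fun x => z (locConj q g x.1, locConj q g x.2))

variable (p) in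
/-- The Hasse principle for `H²(U, μ_p)`. -/
def HasseQ : Prop :=
  ∀ U : Subgroup GQ, (krull ℚ Qb).IsOpen U → ∀ z : GQ × GQ → ZMod p,
    CocOn (krull ℚ Qb) (cycloChar p) U z →
    (∀ (q : ℕ) [Fact q.Prime] (g : GQ), LocTrivAt p q g U z) → CobOn (krull ℚ Qb) (cycloChar p) U z

omit hp in
theorem localGaloisToGlobal_mem_inertia {τ : PadicAlgCl q ≃ₐ[ℚ_[q]] PadicAlgCl q}
    (hτ : τ ∈ inertiaLoc q) :
    localGaloisToGlobal q τ ∈ (padicPlace q).inertiaSubgroupIn ℚ := by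
  rw [Fermat.Agent.TWP.Place.mem_inertiaSubgroupIn_iff]
  refine ⟨localGaloisToGlobal_mem_decompositionSubgroup q τ, fun x hx => ?_⟩
  have h1 := hτ (padicEmbedding q x) hx
  rw [← padicEmbedding_localGaloisToGlobal, ← map_sub] at h1
  rw [ValuationSubring.mem_nonunits_iff_or]
  by_cases h0 : localGaloisToGlobal q τ x - x = 0
  · exact Or.inl h0
  · right
    intro h2
    have h3 : ‖padicEmbedding q (localGaloisToGlobal q τ x - x)⁻¹‖ ≤ 1 := h2
    rw [map_inv₀, norm_inv] at h3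
    have h4 : 0 < ‖padicEmbedding q (localGaloisToGlobal q τ x - x)‖ := by
      rw [norm_pos_iff, map_ne_zero]
      exact h0
    have h5 := (inv_le_one₀ h4).mp h3
    exact absurd h1 (not_lt.mpr h5)

/-- the conjugate of the local inertia group lies in levels unramified at `q` -/
theorem locConj_mem_of_inertia {S : Finset Nat.Primes} (hqS : (⟨q, hq.out⟩ : Nat.Primes) ∉ S)
    {W : Subgroup GQ} (hW : W ∈ (unram S).levels) (g : GQ)
    {τ : PadicAlgCl q ≃ₐ[ℚ_[q]] PadicAlgCl q} (hτ : τ ∈ inertiaLoc q) : locConj q g τ ∈ W := by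
  have hn := (unram S).normal W hW
  obtain ⟨F, hF, -, rfl⟩ := hW
  have h1 := hF.2 ⟨q, hq.out⟩ hqS (padicPlace q) (padicPlace_liesOverPrime q)
    (localGaloisToGlobal_mem_inertia q hτ)
  have h2 := hn.conj_mem _ h1 g⁻¹
  rw [inv_inv] at h2
  rw [locConj_apply]
  exact h2

omit hp in
theorem isOpen_comap_locConj {W : Subgroup GQ} (hW : (krull ℚ Qb).IsOpen W) (g : GQ) :
    IsOpen ((W.comap (locConj q g) : Subgroup (PadicAlgCl q ≃ₐ[ℚ_[q]] PadicAlgCl q)) :
      Set (PadicAlgCl q ≃ₐ[ℚ_[q]] PadicAlgCl q)) := by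
  rw [← isOpen_lvlOver_iff]
  obtain ⟨N, hN, hle⟩ := hW
  obtain ⟨N', hN', h'⟩ := cont_locConj q g N hN
  exact ⟨N', hN', h'.trans (Subgroup.comap_mono hle)⟩

omit hp in
theorem isOpen_krull_of_unram {S : Finset Nat.Primes} {W : Subgroup GQ}
    (hW : (unram S).IsOpen W) : (krull ℚ Qb).IsOpen W := by
  obtain ⟨N, hN, hle⟩ := hW
  obtain ⟨F, hF, hF', rfl⟩ := hN
  exact ⟨_, ⟨F, hF.1, hF', rfl⟩, hle⟩

/-- Classes unramified outside `S` are locally trivial outside `S`. -/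
theorem locTrivAt_of_notMem {S : Finset Nat.Primes} (hqS : (⟨q, hq.out⟩ : Nat.Primes) ∉ S)
    (g : GQ) {N : Subgroup GQ} (hN : (unram S).IsOpen N) (hNχ : N ≤ (cycloChar p).ker)
    {z : GQ × GQ → ZMod p} (hz : CocOn (unram S) (cycloChar p) N z) : LocTrivAt p q g N z := by
  obtain ⟨⟨_, ⟨M, hM, rfl⟩, hlc⟩, hcoc⟩ := hz
  obtain ⟨N1, hN1, hle1⟩ := hN
  obtain ⟨W, hW, hWM, hWN1⟩ := (unram S).directed M hM N1 hN1
  have hWN : W ≤ N := hWN1.trans hle1
  have hWo : (krull ℚ Qb).IsOpen W := isOpen_krull_of_unram (Lvl.IsOpen.of_mem hW)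
  have hNo : (krull ℚ Qb).IsOpen N := hWo.mono hWN
  have hχ : ∀ x ∈ N, (cycloChar p x : (ZMod p)ˣ) = 1 := fun x hx => hNχ hx
  obtain ⟨N'', hN''o, -, -, β, hβ1, hβ2⟩ := exists_unram_coboundary
    (U := N.comap (locConj q g)) (N := W.comap (locConj q g))
    (isOpen_comap_locConj q hNo g) (isOpen_comap_locConj q hWo g)
    (fun τ hτ => locConj_mem_of_inertia q hqS hW g hτ.2) hp.out.ne_zero
    (V := ZMod p) (fun v => by rw [nsmul_eq_mul, CharP.cast_eq_zero, zero_mul])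
    (Representation.trivial (ZMod p) (N.comap (locConj q g)) (ZMod p)) (fun _ _ => rfl)
    (z := fun x => z (locConj q g x.1, locConj q g x.2)) (fun a b c => by
      have h1 := hcoc _ a.2 _ b.2 _ c.2
      rw [hχ _ a.2, Units.val_one, one_mul] at h1
      simp only [Subgroup.coe_mul, map_mul]
      exact h1) (fun a b s t hs ht => by
      simp only [Subgroup.coe_mul, map_mul]
      exact hlc ⟨locConj q g a, a.2⟩ ⟨locConj q g b, b.2⟩ ⟨locConj q g s, s.2⟩ (hWM hs)
        ⟨locConj q g t, t.2⟩ (hWM ht))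
  obtain ⟨M'', hM'', hle''⟩ := isOpen_lvlOver_iff.mpr hN''o
  refine ⟨β, ⟨_, ⟨M'', hM'', rfl⟩, fun a s hs => hβ1 a s (hle'' hs)⟩, fun a b => ?_⟩
  have h2 := hβ2 a b
  have h3 : ((cycloChar p).comp (locConj q g) (a : PadicAlgCl q ≃ₐ[ℚ_[q]] PadicAlgCl q) :
    (ZMod p)ˣ) = 1 := hχ _ a.2
  rw [h3, Units.val_one, one_mul]
  exact h2.symm

end Local

section Eval

variable {p : ℕ} [hp : Fact p.Prime] {X : Type} (π : GQ →* Equiv.Perm X)
  {V : Type} [AddCommGroup V] [Module (ZMod p) V] (ρ : Representation (ZMod p) GQ V)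
  (L : Lvl GQ) (x₀ : X) {N : Subgroup GQ} (hNU : N ≤ stab π x₀) (hρ : ∀ n ∈ N, ρ n = 1)
  (φ : Module.Dual (ZMod p) V)

/-- Restriction to `N ≤ stab x₀`, evaluation at `x₀` and a functional. -/
noncomputable def evalMor : Mor (funRep π ρ) L (Representation.trivial (ZMod p) N (ZMod p)) (L.restrict N) where
  f := N.subtype
  φ := φ ∘ₗ LinearMap.proj x₀
  cont := L.cont_comap _
  comm n v := by
    have h1 : (π (n : GQ))⁻¹ x₀ = x₀ := by
      rw [Equiv.Perm.inv_eq_iff_eq]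
      exact (mem_stab.mp (hNU n.2)).symm
    show φ (ρ (n : GQ) (v ((π (n : GQ))⁻¹ x₀))) = φ (v x₀)
    rw [h1, hρ n n.2]
    rfl

/-- A class of `H²(G_{ℚ,S}, Fun(X, V))` which is trivial at all places of `S` is killed by
`evalMor` over `G_ℚ`. -/
theorem evalMor_H2_eq_zero (hQ : HasseQ p) {S : Finset Nat.Primes}
    (hN : (unram S).IsOpen N) (hNχ : N ≤ (cycloChar p).ker) (hKS : Finer (unram S) (krull ℚ Qb))
    (z : LC.H2 (funRep π ρ) (unram S))
    (hz : ∀ q : ↥S, ∀ hc : (lvlOver (primeLocalToGlobal q.1)).Cont (unram S)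
      (primeLocalToGlobal q.1),
      (Mor.res (funRep π ρ) (primeLocalToGlobal q.1) hc).H2 z = 0) :
    (evalMor π ρ (krull ℚ Qb) x₀ hNU hρ φ).H2 ((cmp (funRep π ρ) hKS).H2 z) = 0 := by
  obtain ⟨Z, rfl⟩ := H2.mk_surjective z
  have hχ : ∀ x ∈ N, (cycloChar p x : (ZMod p)ˣ) = 1 := fun x hx => hNχ hx
  have hinv : ∀ n ∈ N, ∀ v : X → V, φ (funRep π ρ n v x₀) = φ (v x₀) := fun n hn v =>
    (evalMor π ρ (krull ℚ Qb) x₀ hNU hρ φ).comm ⟨n, hn⟩ v
  let z0 : GQ × GQ → ZMod p := fun x => φ (Z.1 x x₀)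
  have hcoc : CocOn (unram S) (cycloChar p) N z0 := by
    refine ⟨?_, fun a ha b hb c hc => ?_⟩
    · exact (((mem_Z2 _ _).mp Z.2).2.pullback ((unram S).cont_comap N.subtype)).comp
        fun v => φ (v x₀)
    · have h1 := congrArg (fun v : X → V => φ (v x₀)) (((mem_Z2 _ _).mp Z.2).1 a b c)
      simp only [Pi.add_apply, map_add] at h1
      rw [hχ a ha, Units.val_one, one_mul]
      show φ (Z.1 (a * b, c) x₀) + φ (Z.1 (a, b) x₀) = φ (Z.1 (b, c) x₀) + φ (Z.1 (a, b * c) x₀)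
      rw [h1, ← hinv a ha (Z.1 (b, c))]
  have hloc : ∀ (q : ℕ) [Fact q.Prime] (g : GQ), LocTrivAt p q g N z0 := by
    intro q hq g
    by_cases hqS : (⟨q, hq.out⟩ : Nat.Primes) ∈ S
    · have h1 := hz ⟨⟨q, hq.out⟩, hqS⟩ (cont_lvlOver_unram S _)
      have h2 : (lvlOver (localGaloisToGlobal q)).Cont (unram S) (locConj q g) := by
        have := (cont_krull_unram S).comp (cont_locConj q g)
        exact this
      have h3 : (Mor.res (funRep π ρ) (locConj q g) h2).H2 (H2.mk (funRep π ρ) (unram S) Z) = 0 :=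
        res_conj_eq_zero (funRep π ρ) (localGaloisToGlobal q) (locConj q g) g
          (fun h => locConj_apply q g h) (cont_lvlOver_unram S _) h2 _ h1
      rw [Mor.H2_mk, H2.mk_eq_zero_iff] at h3
      obtain ⟨w, hw, hdw⟩ := h3
      refine ⟨fun a => φ (w a x₀), ?_, fun a b => ?_⟩
      · exact (hw.pullback ((lvlOver (localGaloisToGlobal q)).cont_comap
          (N.comap (locConj q g)).subtype)).comp fun v => φ (v x₀)
      · have h4 := congrArg (fun v : X → V => φ (v x₀)) (congrFun hdw ((a : _), (b : _)))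
        have h5 := hinv (locConj q g a) a.2 (w b)
        have h6 : ((cycloChar p).comp (locConj q g) (a : PadicAlgCl q ≃ₐ[ℚ_[q]] PadicAlgCl q) :
          (ZMod p)ˣ) = 1 := hχ _ a.2
        rw [h6, Units.val_one, one_mul]
        show φ (Z.1 (locConj q g a, locConj q g b) x₀) = φ (w b x₀) - φ (w (a * b) x₀) + φ (w a x₀)
        rw [← h5]
        have h7 : φ (Z.1 (locConj q g a, locConj q g b) x₀) =
          φ ((funRep π ρ (locConj q g a) (w b) - w (a * b) + w a) x₀) := h4.symm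
        rw [h7]
        simp only [Pi.add_apply, Pi.sub_apply, map_add, map_sub]
    · exact locTrivAt_of_notMem q hqS g hN hNχ hcoc
  have hcoc' : CocOn (krull ℚ Qb) (cycloChar p) N z0 :=
    ⟨(hKS.restrict N).isLC₂ hcoc.1, hcoc.2⟩
  obtain ⟨w, hw, hw2⟩ := hQ N (isOpen_krull_of_unram hN) z0 hcoc' hloc
  rw [Mor.H2_mk, Mor.H2_mk, H2.mk_eq_zero_iff]
  refine ⟨w, hw, ?_⟩
  funext x
  have h1 := hw2 x.1 x.2
  rw [hχ _ x.1.2, Units.val_one, one_mul] at h1
  exact h1.symm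

end Eval

end Fermat.Agent.CFT.D2
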