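import Fermat.Agent.CFT.D2.Field
import Fermat.Agent.CFT.D2.LocBound
import Fermat.Agent.CFT.D2.LocZero
import Fermat.Agent.CFT.W.Orbits
import Fermat.Agent.CFT.LC.Frozen

/-!
# The Euler characteristic inequality for open subgroups fixing `μ_p` (piece D2)
-/

set_option autoImplicit false

open ExtCitation Pointwise NumberField IsDedekindDomain Module
open Fermat.Agent.CFT.W Fermat.Agent.CFT.LC Fermat.Agent.CFT.PT

namespace Fermat.Agent.CFT.D2

/-- An algebraic closure of `ℚ`. -/
local notation "Qb" => AlgebraicClosure ℚ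

section H0

variable {k : Type} [Field k] {G : Type} [Group G] {V : Type} [AddCommGroup V] [Module k V]

theorem finrank_H0_of_trivial {ρ : Representation k G V} (h : ∀ g, ρ g = 1) :
    finrank k (LC.H0 ρ) = finrank k V := by
  have h1 : LC.H0 ρ = ⊤ := by
    rw [eq_top_iff]
    intro v _
    rw [mem_H0]
    intro g
    rw [h g]
    rfl
  rw [h1, finrank_top]

end H0

section Places

variable {p : ℕ} [hp : Fact p.Prime] {E : IntermediateField ℚ Qb} [FiniteDimensional ℚ E]

/-- places above `S` are the disjoint union of the places above the primes of `S` -/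
theorem card_SL (S : Finset Nat.Primes) :
    Nat.card (SL S E) = ∑ q : ↥S, Nat.card (Above ((q.1 : Nat.Primes) : ℕ) E) := by
  classical
  have hfin : ∀ q : ↥S, Finite (Above ((q.1 : Nat.Primes) : ℕ) E) := fun q =>
    haveI : Fact ((q.1 : Nat.Primes) : ℕ).Prime := ⟨q.1.2⟩
    inferInstance
  rw [← Nat.card_sigma]
  symm
  refine Nat.card_congr (Equiv.ofBijective
    (fun x : (q : ↥S) × Above ((q.1 : Nat.Primes) : ℕ) E =>
      (⟨x.2.1, x.1.1, x.1.2, x.2.2⟩ : SL S E)) ⟨?_, ?_⟩)
  · rintro ⟨⟨q, hq⟩, ⟨v, hv⟩⟩ ⟨⟨q', hq'⟩, ⟨v', hv'⟩⟩ h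
    have h1 : v = v' := congrArg Subtype.val h
    subst h1
    have h2 : q = q' := Subtype.ext (prime_unique q.2 q'.2 hv hv')
    subst h2
    rfl
  · rintro ⟨v, q, hq, hv⟩
    exact ⟨⟨⟨q, hq⟩, ⟨v, hv⟩⟩, rfl⟩

end Places

section Main

variable {p : ℕ} [hp : Fact p.Prime]

/-- `μ_p` as a trivial module -/
theorem dtw_eq_one {k : Type} [Field k] {G : Type} [Group G] {V : Type} [AddCommGroup V]
    [Module k V] {ρ : Representation k G V} {χ : G →* kˣ} {g : G} (h1 : ρ g = 1) (h2 : χ g = 1) :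
    dtw ρ χ g = 1 := by
  refine LinearMap.ext fun f => LinearMap.ext fun v => ?_
  have h3 : ρ g⁻¹ = 1 := by
    have h4 : ρ g⁻¹ * ρ g = 1 := by rw [← map_mul, inv_mul_cancel, map_one]
    rwa [h1, mul_one] at h4
  rw [dtw_apply_apply, h2, h3]
  simp

variable (E : IntermediateField ℚ Qb) [FiniteDimensional ℚ E]

/-- local invariants of the twisted dual of `Fun(G/U, k)`, `U` fixing `μ_p` -/
theorem finrank_H0_local (hU : E.fixingSubgroup ≤ (cycloChar p).ker) (q : Nat.Primes) :
    finrank (ZMod p) (LC.H0 (dtw ((funRep (quotPerm E.fixingSubgroup)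
      (Representation.trivial (ZMod p) GQ (ZMod p))).comp (primeLocalToGlobal q))
      ((cycloChar p).comp (primeLocalToGlobal q)))) = Nat.card (Above (q : ℕ) E) := by
  classical
  haveI : Fact (q : ℕ).Prime := ⟨q.2⟩
  have hfin : Finite (Above (q : ℕ) E) := inferInstance
  have := Fintype.ofFinite (Above (q : ℕ) E)
  let π : primeLocalGaloisGroup q →* Equiv.Perm (GQ ⧸ E.fixingSubgroup) := permLoc (q : ℕ) E
  let O : Orbits π (Above (q : ℕ) E) := orbitsAbove (q : ℕ) E
  let ρ : Representation (ZMod p) (primeLocalGaloisGroup q) (ZMod p) :=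
    (Representation.trivial (ZMod p) GQ (ZMod p)).comp (primeLocalToGlobal q)
  let χ : primeLocalGaloisGroup q →* (ZMod p)ˣ := (cycloChar p).comp (primeLocalToGlobal q)
  have e := (dualFunIso π ρ χ (lvlOver (primeLocalToGlobal q))).H0
  have h1 : ∀ ω : Above (q : ℕ) E, ∀ g : stab π (O.rep ω),
      (dtw ρ χ).comp (stab π (O.rep ω)).subtype g = 1 := by
    intro ω g
    refine dtw_eq_one rfl ?_
    have h2 : (g : primeLocalGaloisGroup q) ∈ stab π (O.rep ω) := g.2
    have h3 : (repG (q : ℕ) E ω)⁻¹ * primeLocalToGlobal q g * repG (q : ℕ) E ω ∈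
        E.fixingSubgroup := by
      have h4 := (mem_stab_permLoc (q : ℕ) E (repG (q : ℕ) E ω) (g : primeLocalGaloisGroup q)).1 h2
      exact (mem_fixingSubgroup_localField (q : ℕ) E _ _).1 h4
    have h5 : cycloChar p ((repG (q : ℕ) E ω)⁻¹ * primeLocalToGlobal q g * repG (q : ℕ) E ω) = 1 :=
      hU h3
    rw [map_mul, map_mul, mul_right_comm, map_inv, inv_mul_cancel, one_mul] at h5
    exact h5
  have h6 : ∀ ω, Module.Finite (ZMod p)
      (LC.H0 ((dtw ρ χ).comp (stab π (O.rep ω)).subtype)) := fun ω => inferInstance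
  have h7 := O.finrank_H0 (L := lvlOver (primeLocalToGlobal q)) (dtw ρ χ)
  have h8 : finrank (ZMod p) (LC.H0 (funRep π (dtw ρ χ))) = Nat.card (Above (q : ℕ) E) := by
    rw [h7, Nat.card_eq_fintype_card, Fintype.card_eq_sum_ones]
    refine Finset.sum_congr rfl fun ω _ => ?_
    rw [finrank_H0_of_trivial (h1 ω), Subspace.dual_finrank_eq, finrank_self]
  rw [← h8]
  exact e.finrank_eq

/-- global invariants of the twisted dual of `Fun(G/U, k)`, `U` fixing `μ_p` -/
theorem finrank_H0_global {U : Subgroup GQ} (hUo : (krull ℚ Qb).IsOpen U)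
    (hU : U ≤ (cycloChar p).ker) :
    finrank (ZMod p) (LC.H0 (dtw (funRep (quotPerm U)
      (Representation.trivial (ZMod p) GQ (ZMod p))) (cycloChar p))) = 1 := by
  have := finite_quot hUo
  have e := (dualFunIso (quotPerm U) (Representation.trivial (ZMod p) GQ (ZMod p))
    (cycloChar p) (krull ℚ Qb)).H0
  have e' := shapiroQ0 (dtw (Representation.trivial (ZMod p) GQ (ZMod p)) (cycloChar p))
    (krull ℚ Qb) U
  have h1 : ∀ g : U, (dtw (Representation.trivial (ZMod p) GQ (ZMod p)) (cycloChar p)).comp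
      U.subtype g = 1 := fun g => dtw_eq_one rfl (hU g.2)
  rw [e.finrank_eq, e'.finrank_eq, finrank_H0_of_trivial h1,
    Subspace.dual_finrank_eq, finrank_self]

/-- **D2**: the Euler characteristic inequality for open subgroups fixing `μ_p`. -/
theorem hG3 (hp2 : p ≠ 2) {S : Finset Nat.Primes} (hpS : (⟨p, hp.out⟩ : Nat.Primes) ∈ S)
    (hQ : HasseQ p) {δ : ↥S → ℕ}
    (D : ∀ q : ↥S, LocalDuality (lvlOver (primeLocalToGlobal q.1))
      ((cycloChar p).comp (primeLocalToGlobal q.1)) (δ q))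
    (hrec : HRec (unram S) (cycloChar p) (fun q : ↥S => lvlOver (primeLocalToGlobal q.1))
      (fun q => primeLocalToGlobal q.1) (cont_locS S) fun q => (D q).inv) :
    HG3 (k := ZMod p) (unram S) (cycloChar p) := by
  intro U hUo hUχ
  have hUk : (krull ℚ Qb).IsOpen U := isOpen_krull_of_unram hUo
  obtain ⟨E, hE, rfl⟩ := exists_field_eq hUk
  -- the primitive root
  obtain ⟨ζ, hζ⟩ : ∃ ζ : Qbˣ, IsPrimitiveRoot ζ p := by
    have : NeZero (p : Qb) := ⟨Nat.cast_ne_zero.mpr hp.out.ne_zero⟩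
    obtain ⟨z, hz⟩ := HasEnoughRootsOfUnity.exists_primitiveRoot Qb p
    exact ⟨(hz.isUnit hp.out.ne_zero).unit, hz.isUnit_unit hp.out.ne_zero⟩
  have hfix : ∀ u ∈ E.fixingSubgroup, u • ζ = ζ := by
    intro u hu
    have h1 : cycloChar p u = 1 := hUχ hu
    have : Fact (1 < p) := ⟨hp.out.one_lt⟩
    rw [Hasse.cyclo_act hζ, h1, Units.val_one, ZMod.val_one, pow_one]
  have hmem : (ζ : Qb) ∈ E := by
    obtain ⟨x, hx⟩ := exists_inc (E := E) hfix
    rw [← hx]
    exact (x : E).2
  have h : Hyp p S E ζ := ⟨hζ, hmem, le_QS_of_isOpen hUo, hpS⟩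
  obtain ⟨f1, f2, hineq⟩ := finrank_H1_ge h
  -- the module of functions on `G/U`
  have hfq := finite_quot hUo
  set U := E.fixingSubgroup with hU
  let ρ : Representation (ZMod p) GQ (ZMod p) := Representation.trivial (ZMod p) GQ (ZMod p)
  have hρ : Smooth (unram S) (funRep (quotPerm U) ρ) :=
    smooth_funRep (isOpen_ker_quotPerm hUo) (smooth_triv (unram S))
  let sh : Mor (funRep (quotPerm U) ρ) (unram S) (triv p U) (lS S U) := shQ ρ (unram S) U
  let K : Submodule (ZMod p) (LC.H2 (funRep (quotPerm U) ρ) (unram S)) :=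
    (K2 (triv p U) (finer_lS_lQ S U)).comap sh.H2
  have hinj : Function.Injective sh.H2 := by
    intro x y hxy
    apply (shapiroQ2 ρ hUo).injective
    rw [shapiroQ2_apply, shapiroQ2_apply]
    exact hxy
  let j : K →ₗ[ZMod p] K2 (triv p U) (finer_lS_lQ S U) := sh.H2.restrict fun _ hx => hx
  have hj : Function.Injective j := by
    intro x y hxy
    exact Subtype.ext (hinj (congrArg Subtype.val hxy))
  have f3 : FiniteDimensional (ZMod p) K := FiniteDimensional.of_injective j hj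
  have h1 : finrank (ZMod p) K ≤ finrank (ZMod p) (K2 (triv p U) (finer_lS_lQ S U)) :=
    LinearMap.finrank_le_finrank_of_injective hj
  have hfiner : Finer (unram S) (krull ℚ Qb) := by
    rintro _ ⟨F, hF, hF', rfl⟩
    exact ⟨_, ⟨F, hF.1, hF', rfl⟩, le_rfl⟩
  have hK : ∀ z, (∀ v : ↥S, (Mor.res (funRep (quotPerm U) ρ) (primeLocalToGlobal v.1)
      (cont_locS S v)).H2 z = 0) → z ∈ K := by
    intro z hz
    have h2 := evalMor_H2_eq_zero (quotPerm U) ρ ((1 : GQ) : GQ ⧸ U) (stab_quotPerm U).ge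
      (fun _ _ => rfl) LinearMap.id hQ hUo hUχ hfiner z (fun q _ => hz q)
    show (cmp (triv p U) (finer_lS_lQ S U)).H2 (sh.H2 z) = 0
    rw [← Mor.H2_comp] at h2 ⊢
    exact h2
  have hne : Nonempty ↥S := ⟨⟨_, hpS⟩⟩
  obtain ⟨f4, h2⟩ := finrank_H2_le (hr := cont_locS S) D hrec (funRep (quotPerm U) ρ) hρ K hK
  have h3 : finrank (ZMod p) (LC.H0 (dtw (funRep (quotPerm U) ρ) (cycloChar p))) = 1 :=
    finrank_H0_global hUk hUχ
  have h4 : ∑ v : ↥S, finrank (ZMod p) (LC.H0 (dtw ((funRep (quotPerm U) ρ).comp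
      (primeLocalToGlobal v.1)) ((cycloChar p).comp (primeLocalToGlobal v.1)))) =
      Nat.card (SL S E) := by
    rw [card_SL]
    exact Finset.sum_congr rfl fun v _ => finrank_H0_local E hUχ v.1
  have e : LC.H2 (funRep (quotPerm U) ρ) (unram S) ≃ₗ[ZMod p]
    LC.H2 (Representation.trivial (ZMod p) U (ZMod p)) ((unram S).restrict U) := shapiroQ2 ρ hUo
  have f5 : FiniteDimensional (ZMod p)
      (LC.H2 (Representation.trivial (ZMod p) U (ZMod p)) ((unram S).restrict U)) :=
    e.finiteDimensional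
  have h5 := e.finrank_eq
  have h6 : finrank ℚ E = U.index := IntermediateField.finrank_eq_fixingSubgroup_index (L := E)
  have h7 := two_mul_rank hp2 hζ hmem
  refine ⟨f1, f5, ?_⟩
  have h8 : finrank (ZMod p) (LC.H1 (Representation.trivial (ZMod p) U (ZMod p))
      ((unram S).restrict U)) = finrank (ZMod p) (LC.H1 (triv p U) (lS S U)) := rfl
  rw [h8]
  omega

end Main

end Fermat.Agent.CFT.D2
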