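import Fermat.Agent.CFT.D2.Final
import Fermat.Agent.CFT.Hasse.Principle

/-!
# Piece D2 with the Hasse principle plugged in
-/

set_option autoImplicit false

open ExtCitation
open Fermat.Agent.CFT.W Fermat.Agent.CFT.LC Fermat.Agent.CFT.PT

namespace Fermat.Agent.CFT.D2

variable {p : ℕ} [hp : Fact p.Prime]

/-- The Hasse principle (piece D1). -/
theorem hasseQ (hp2 : p ≠ 2) : HasseQ p := by
  intro U hU z hz h
  exact Hasse.hasse_Q hp2 hU hz fun i =>
    haveI : Fact (i.1 : ℕ).Prime := ⟨i.1.2⟩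
    h (i.1 : ℕ) i.2

/-- **D2**: the Euler characteristic inequality for open subgroups fixing `μ_p`. -/
theorem hG3_of_rec (hp2 : p ≠ 2) {S : Finset Nat.Primes} (hpS : (⟨p, hp.out⟩ : Nat.Primes) ∈ S)
    {δ : ↥S → ℕ}
    (D : ∀ q : ↥S, LocalDuality (lvlOver (primeLocalToGlobal q.1))
      ((cycloChar p).comp (primeLocalToGlobal q.1)) (δ q))
    (hrec : HRec (unram S) (cycloChar p) (fun q : ↥S => lvlOver (primeLocalToGlobal q.1))
      (fun q => primeLocalToGlobal q.1) (cont_locS S) fun q => (D q).inv) :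
    HG3 (k := ZMod p) (unram S) (cycloChar p) :=
  hG3 hp2 hpS (hasseQ hp2) D hrec

end Fermat.Agent.CFT.D2
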